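/-
S51 helper library, part 1: explicit duplication formula on a Weierstrass curve over a field,
and the characterisation of 3- and 5-torsion points by the division polynomials.
-/
import Mathlib

set_option autoImplicit false

namespace Fermat.Agent.Lib.S51
open WeierstrassCurve

section Algebra

variable {F : Type*} [Field F] (W : WeierstrassCurve.Affine F)

/-- value of `Ψ₂Sq` at `x` -/
def dd (x : F) : F := 4*x^3 + W.b₂*x^2 + 2*W.b₄*x + W.b₆
/-- value of `Ψ₃` at `x` -/
def p3 (x : F) : F := 3*x^4 + W.b₂*x^3 + 3*W.b₄*x^2 + 3*W.b₆*x + W.b₈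
/-- value of `preΨ₄` at `x` -/
def p4 (x : F) : F := 2*x^6 + W.b₂*x^5 + 5*W.b₄*x^4 + 10*W.b₆*x^3 + 10*W.b₈*x^2
  + (W.b₂*W.b₈ - W.b₄*W.b₆)*x + (W.b₄*W.b₈ - W.b₆^2)
/-- value of the 5-division polynomial at `x` -/
def p5 (x : F) : F := p4 W x * dd W x ^2 - p3 W x ^3
/-- the translated `b₂` -/
def bb2 (x : F) : F := 12*x + W.b₂
/-- the translated `b₄` -/
def bb4 (x : F) : F := 6*x^2 + W.b₂*x + W.b₄

lemma bb_relation (x : F) : 4 * p3 W x = bb2 W x * dd W x - bb4 W x ^2 := by
  simp only [p3, bb2, dd, bb4]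
  linear_combination W.b_relation

lemma p4_eq (x : F) : p4 W x = bb4 W x * p3 W x - dd W x ^ 2 := by
  simp only [p4, p3, bb4, dd]
  linear_combination (x^2) * W.b_relation

lemma p5_eq (x : F) :
    p5 W x = (bb4 W x * p3 W x - dd W x ^ 2) * dd W x ^ 2 - p3 W x ^3 := by
  rw [p5, p4_eq]

lemma dd_add (x δ : F) :
    dd W (x+δ) = dd W x + 2 * bb4 W x * δ + bb2 W x * δ^2 + 4*δ^3 := by
  simp only [dd, bb4, bb2]; ring

lemma p3_add (x δ : F) :
    p3 W (x+δ) = p3 W x + 3 * dd W x * δ + 3 * bb4 W x * δ^2 + bb2 W x * δ^3 + 3*δ^4 := by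
  simp only [p3, dd, bb4, bb2]; ring

lemma Δ_eq (x : F) :
    W.Δ = -(bb2 W x)^2 * p3 W x - 8 * (bb4 W x)^3 - 27 * (dd W x)^2
      + 9 * bb2 W x * bb4 W x * dd W x := by
  simp only [WeierstrassCurve.Δ, p3, bb2, dd, bb4]
  linear_combination (36 * x ^ 2 + 6 * W.b₂ * x) * W.b_relation

lemma not_dd_p3_zero (hΔ : W.Δ ≠ 0) (x : F) : ¬ (dd W x = 0 ∧ p3 W x = 0) := by
  rintro ⟨h1, h2⟩
  have h3 := bb_relation W x
  rw [h1, h2] at h3
  have h4 : bb4 W x = 0 := by
    have : bb4 W x ^ 2 = 0 := by linear_combination h3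
    exact pow_eq_zero_iff (two_ne_zero) |>.mp this
  apply hΔ
  rw [Δ_eq W x, h1, h2, h4]; ring

lemma dd_dup_aux (B2 B4 B6 B8 : F) (hrel : 4*B8 = B2*B6 - B4^2) (h6 : B6 ≠ 0) :
    (B6 + 2*B4*(-B8/B6) + B2*(-B8/B6)^2 + 4*(-B8/B6)^3) * B6^3 = (B4*B8 - B6^2)^2 := by
  field_simp
  linear_combination (-B8^2) * hrel

lemma dup_dup_aux (B2 B4 B6 B8 : F) (h6 : B6 ≠ 0) :
    (-(-B8/B6) * (B6 + 2*B4*(-B8/B6) + B2*(-B8/B6)^2 + 4*(-B8/B6)^3)
      + (B8 + 3*B6*(-B8/B6) + 3*B4*(-B8/B6)^2 + B2*(-B8/B6)^3 + 3*(-B8/B6)^4)) * B6^4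
      = B8 * ((B4*B8 - B6^2) * B6^2 - B8^3) := by
  field_simp
  ring

/-- the `x`-coordinate of the double of a point with `x`-coordinate `x` -/
noncomputable def dupX (x : F) : F := x - p3 W x / dd W x

lemma dd_dupX (x : F) (hd : dd W x ≠ 0) :
    dd W (dupX W x) * dd W x ^ 3 = p4 W x ^ 2 := by
  have e : dupX W x = x + (-p3 W x / dd W x) := by rw [dupX]; ring
  rw [e, dd_add, p4_eq]
  exact dd_dup_aux _ _ _ _ (bb_relation W x) hd

lemma dupX_dupX (x : F) (hd : dd W x ≠ 0) :
    ((x - dupX W x) * dd W (dupX W x) + p3 W (dupX W x)) * dd W x ^ 4 = p3 W x * p5 W x := by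
  have e : dupX W x = x + (-p3 W x / dd W x) := by rw [dupX]; ring
  have e2 : x - dupX W x = -(-p3 W x / dd W x) := by rw [dupX]; ring
  rw [e2, e, dd_add, p3_add, p5_eq]
  exact dup_dup_aux _ _ _ _ hd

lemma p5_ne (hΔ : W.Δ ≠ 0) {x : F} (h5 : p5 W x = 0) :
    dd W x ≠ 0 ∧ p3 W x ≠ 0 ∧ p4 W x ≠ 0 := by
  have h := p5_eq W x
  rw [h5] at h
  have h3 : p3 W x ≠ 0 := by
    intro h3
    rw [h3] at h
    have : dd W x ^ 4 = 0 := by linear_combination h
    exact not_dd_p3_zero W hΔ x ⟨pow_eq_zero_iff (by norm_num) |>.mp this, h3⟩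
  have hd : dd W x ≠ 0 := by
    intro hd
    rw [hd] at h
    have : p3 W x ^ 3 = 0 := by linear_combination h
    exact h3 (pow_eq_zero_iff (by norm_num) |>.mp this)
  refine ⟨hd, h3, ?_⟩
  intro h4
  have h' : p5 W x = p4 W x * dd W x ^2 - p3 W x ^3 := rfl
  rw [h5, h4] at h'
  have : p3 W x ^ 3 = 0 := by linear_combination h'
  exact h3 (pow_eq_zero_iff (by norm_num) |>.mp this)

end Algebra

section Points

variable {F : Type*} [Field F] (W : WeierstrassCurve.Affine F)
open WeierstrassCurve.Affine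

lemma sub_negY_sq {x y : F} (h : W.Equation x y) : (y - W.negY x y)^2 = dd W x := by
  rw [Affine.equation_iff] at h
  simp only [Affine.negY, dd, WeierstrassCurve.b₂, WeierstrassCurve.b₄, WeierstrassCurve.b₆]
  linear_combination 4 * h

lemma eq_negY_iff {x y : F} (h : W.Equation x y) : y = W.negY x y ↔ dd W x = 0 := by
  rw [← sub_negY_sq W h, sq_eq_zero_iff, sub_eq_zero]

variable [DecidableEq F]

lemma dbl_x {x y : F} (h : W.Equation x y) (hy : y ≠ W.negY x y) :
    (W.addX x x (W.slope x x y y) - x) * dd W x = - p3 W x := by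
  have hne : y - W.negY x y ≠ 0 := sub_ne_zero.mpr hy
  rw [Affine.slope_of_Y_ne rfl hy, ← sub_negY_sq W h]
  rw [Affine.equation_iff] at h
  simp only [Affine.addX, p3, WeierstrassCurve.b₂, WeierstrassCurve.b₄, WeierstrassCurve.b₆,
    WeierstrassCurve.b₈]
  field_simp
  simp only [Affine.negY]
  linear_combination (-(W.a₁^2 + 4*W.a₂ + 12*x)) * h

/-- the `x`-coordinate of a point (junk value `0` at the origin) -/
def xOf : W.Point → F
  | .zero => 0
  | .some x _ _ => x

omit [DecidableEq F] in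
@[simp] lemma xOf_some {x y : F} (h : W.Nonsingular x y) : xOf W (Point.some x y h) = x := rfl

omit [DecidableEq F] in
lemma xOf_neg (P : W.Point) : xOf W (-P) = xOf W P := by
  cases P with
  | zero => rfl
  | some x y h => rfl

lemma add_self_eq_zero_iff {x y : F} (h : W.Nonsingular x y) :
    Point.some x y h + Point.some x y h = 0 ↔ dd W x = 0 := by
  rw [← eq_negY_iff W h.1]
  constructor
  · intro h0
    by_contra hy
    rw [Point.add_self_of_Y_ne hy] at h0
    exact Point.some_ne_zero _ h0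
  · intro hy
    exact Point.add_self_of_Y_eq hy

lemma exists_add_self {x y : F} (h : W.Nonsingular x y) (hd : dd W x ≠ 0) :
    ∃ y' h', Point.some x y h + Point.some x y h = Point.some (dupX W x) y' h' := by
  have hy : y ≠ W.negY x y := fun e => hd ((eq_negY_iff W h.1).mp e)
  have hx' : W.addX x x (W.slope x x y y) = dupX W x := by
    have := dbl_x W h.1 hy
    rw [dupX]
    field_simp
    linear_combination this
  have key : ∀ x' (_ : W.addX x x (W.slope x x y y) = x'),
      ∃ y' h', Point.some x y h + Point.some x y h = Point.some x' y' h' := by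
    rintro _ rfl
    exact ⟨_, _, Point.add_self_of_Y_ne hy⟩
  exact key _ hx'

lemma xOf_two_nsmul {x y : F} (h : W.Nonsingular x y) (hd : dd W x ≠ 0) :
    xOf W (2 • Point.some x y h) = dupX W x := by
  obtain ⟨y', h', e⟩ := exists_add_self W h hd
  rw [two_nsmul, e, xOf_some]

lemma three_nsmul_eq_zero_iff (hΔ : W.Δ ≠ 0) {x y : F} (h : W.Nonsingular x y) :
    3 • Point.some x y h = 0 ↔ p3 W x = 0 := by
  have h3 : 3 • Point.some x y h = (Point.some x y h + Point.some x y h) + Point.some x y h := by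
    rw [succ_nsmul, two_nsmul]
  rw [h3]
  constructor
  · intro h0
    have hneg : Point.some x y h + Point.some x y h = - Point.some x y h :=
      eq_neg_of_add_eq_zero_left h0
    by_cases hd : dd W x = 0
    · rw [(add_self_eq_zero_iff W h).mpr hd] at hneg
      exact absurd (neg_eq_zero.mp hneg.symm) (Point.some_ne_zero h)
    · obtain ⟨y', h', e⟩ := exists_add_self W h hd
      rw [e, Point.neg_some] at hneg
      have hx : dupX W x = x := by
        injection hneg
      rw [dupX] at hx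
      have : p3 W x / dd W x = 0 := by linear_combination -hx
      rcases div_eq_zero_iff.mp this with h | h
      · exact h
      · exact absurd h hd
  · intro hp
    have hd : dd W x ≠ 0 := fun hd => not_dd_p3_zero W hΔ x ⟨hd, hp⟩
    obtain ⟨y', h', e⟩ := exists_add_self W h hd
    have hx : dupX W x = x := by rw [dupX, hp]; simp
    rw [e]
    rcases (Point.X_eq_iff (h₁ := h') (h₂ := h)).mp hx with h1 | h1
    · exfalso
      rw [← e] at h1
      have : Point.some x y h = 0 := by
        have := congrArg (fun P => P - Point.some x y h) h1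
        simp at this
      exact Point.some_ne_zero h this
    · rw [h1]; simp

omit [DecidableEq F] in
lemma dupX_eq_of {x x₂ : F} (hd : dd W x₂ ≠ 0) :
    dupX W x₂ = x ↔ (x - x₂) * dd W x₂ + p3 W x₂ = 0 := by
  rw [dupX]
  constructor
  · intro e
    rw [← e]; field_simp; ring
  · intro e
    field_simp
    linear_combination -e

lemma five_nsmul_eq_zero_iff (hΔ : W.Δ ≠ 0) {x y : F} (h : W.Nonsingular x y) :
    5 • Point.some x y h = 0 ↔ p5 W x = 0 := by
  set P := Point.some x y h with hPdef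
  have hP0 : P ≠ 0 := Point.some_ne_zero h
  have e5 : 5 • P = ((P + P) + (P + P)) + P := by abel
  have e3 : 3 • P = (P + P) + P := by abel
  constructor
  · intro h0
    have hd : dd W x ≠ 0 := by
      intro hd
      have h2 : P + P = 0 := (add_self_eq_zero_iff W h).mpr hd
      rw [e5, h2] at h0
      simp at h0
    obtain ⟨y₂, h₂, e₂⟩ := exists_add_self W h hd
    have hd₂ : dd W (dupX W x) ≠ 0 := by
      intro hd₂
      have h4 : (P + P) + (P + P) = 0 := by
        rw [hPdef, e₂]; exact (add_self_eq_zero_iff W h₂).mpr hd₂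
      rw [e5, h4] at h0
      simp at h0
    obtain ⟨y₄, h₄, e₄⟩ := exists_add_self W h₂ hd₂
    have hneg : (P + P) + (P + P) = -P := by
      rw [e5] at h0
      exact eq_neg_of_add_eq_zero_left h0
    have hx : dupX W (dupX W x) = x := by
      rw [hPdef, e₂, e₄, Point.neg_some] at hneg
      injection hneg
    have hrel := (dupX_eq_of W hd₂).mp hx
    have hprod : p3 W x * p5 W x = 0 := by
      rw [← dupX_dupX W x hd, hrel, zero_mul]
    have hp3 : p3 W x ≠ 0 := by
      intro hp3
      have h3 : 3 • P = 0 := (three_nsmul_eq_zero_iff W hΔ h).mpr hp3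
      have h2 : P + P = 0 := by
        have : 5 • P = 3 • P + (P + P) := by abel
        rw [this, h3, zero_add] at h0
        exact h0
      exact hd ((add_self_eq_zero_iff W h).mp h2)
    exact (mul_eq_zero.mp hprod).resolve_left hp3
  · intro hp5
    obtain ⟨hd, hp3, hp4⟩ := p5_ne W hΔ hp5
    obtain ⟨y₂, h₂, e₂⟩ := exists_add_self W h hd
    have hd₂ : dd W (dupX W x) ≠ 0 := by
      intro hd₂
      have := dd_dupX W x hd
      rw [hd₂, zero_mul] at this
      exact hp4 (pow_eq_zero_iff (two_ne_zero) |>.mp this.symm)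
    obtain ⟨y₄, h₄, e₄⟩ := exists_add_self W h₂ hd₂
    have hx : dupX W (dupX W x) = x := by
      rw [dupX_eq_of W hd₂]
      have := dupX_dupX W x hd
      rw [hp5, mul_zero] at this
      rcases mul_eq_zero.mp this with h | h
      · exact h
      · exact absurd (pow_eq_zero_iff (by norm_num) |>.mp h) hd
    rw [e5, hPdef, e₂, e₄]
    rcases (Point.X_eq_iff (h₁ := h₄) (h₂ := h)).mp hx with h1 | h1
    · exfalso
      have h3 : 3 • P = 0 := by
        have e : (P + P) + (P + P) = P := by rw [hPdef, e₂, e₄, h1]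
        have : 3 • P = ((P + P) + (P + P)) - P := by abel
        rw [this, e, sub_self]
      exact hp3 ((three_nsmul_eq_zero_iff W hΔ h).mp h3)
    · rw [h1]; simp

/-- multiples of a point of order five have `x`-coordinate `x` or `dupX x` -/
lemma xOf_nsmul_of_five {x y : F} (h : W.Nonsingular x y)
    (h5 : 5 • Point.some x y h = 0) (hd : dd W x ≠ 0) (m : ℕ) :
    m • Point.some x y h = 0 ∨ xOf W (m • Point.some x y h) = x ∨
      xOf W (m • Point.some x y h) = dupX W x := by
  set P := Point.some x y h with hPdef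
  have hm : m • P = (m % 5) • P := by
    conv_lhs => rw [← Nat.mod_add_div m 5]
    rw [add_nsmul, mul_nsmul, h5, nsmul_zero, add_zero]
  rw [hm]
  have hlt : m % 5 < 5 := Nat.mod_lt _ (by norm_num)
  have h2 : xOf W (2 • P) = dupX W x := xOf_two_nsmul W h hd
  interval_cases (m % 5)
  · left; simp
  · right; left; simp [hPdef]
  · right; right; exact h2
  · right; right
    have : (3 : ℕ) • P = -((2 : ℕ) • P) := by
      have : (3 : ℕ) • P = (5 : ℕ) • P - (2 : ℕ) • P := by abel
      rw [this, h5, zero_sub]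
    rw [this, xOf_neg, h2]
  · right; left
    have : (4 : ℕ) • P = -P := by
      have : (4 : ℕ) • P = (5 : ℕ) • P - P := by abel
      rw [this, h5, zero_sub]
    rw [this, xOf_neg, hPdef, xOf_some]

/-- multiples of a point of order three have `x`-coordinate `x` -/
lemma xOf_nsmul_of_three {x y : F} (h : W.Nonsingular x y)
    (h3 : 3 • Point.some x y h = 0) (m : ℕ) :
    m • Point.some x y h = 0 ∨ xOf W (m • Point.some x y h) = x := by
  set P := Point.some x y h with hPdef
  have hm : m • P = (m % 3) • P := by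
    conv_lhs => rw [← Nat.mod_add_div m 3]
    rw [add_nsmul, mul_nsmul, h3, nsmul_zero, add_zero]
  rw [hm]
  have hlt : m % 3 < 3 := Nat.mod_lt _ (by norm_num)
  interval_cases (m % 3)
  · left; simp
  · right; simp [hPdef]
  · right
    have : (2 : ℕ) • P = -P := by
      have : (2 : ℕ) • P = (3 : ℕ) • P - P := by abel
      rw [this, h3, zero_sub]
    rw [this, xOf_neg, hPdef, xOf_some]

end Points

end Fermat.Agent.Lib.S51
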