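/-
S51 helper library, part 4: the explicit model `S² = v(4v+1)(9v-4)` of `X₀(15)` built from the
`x`-coordinate `x₀` of a 3-torsion point and the `x`-coordinate `x₁` of a 5-torsion point.
Pure algebra over a field.
-/
import Fermat.Agent.Lib.S51.Dup

set_option autoImplicit false
set_option linter.unusedSectionVars false

namespace Fermat.Agent.Lib.S51
open WeierstrassCurve

section Param
variable {F : Type*} [Field F]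

/-- Parametrisation of the translated `b`-invariants at a 5-torsion point by `(μ, λ)`. -/
lemma param_five (B2 B4 B6 B8 : F) (hrel : 4*B8 = B2*B6 - B4^2)
    (h5 : (B4*B8 - B6^2) * B6^2 - B8^3 = 0) (h6 : B6 ≠ 0) (h8 : B8 ≠ 0) :
    let μ := B6^3 / B8^2
    let lam := - B8^3 / B6^4
    B6 = μ^3 * lam^2 ∧ B8 = - μ^4 * lam^3 ∧ B4 = μ^2 * (lam^2 - lam) ∧
      B2 = μ * (lam^2 - 6*lam + 1) := by
  intro μ lam
  have e6 : B6 = μ^3 * lam^2 := by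
    simp only [μ, lam]; field_simp
  have e8 : B8 = - μ^4 * lam^3 := by
    simp only [μ, lam]; field_simp
  have e4 : B4 = μ^2 * (lam^2 - lam) := by
    simp only [μ, lam]; field_simp
    linear_combination h5
  refine ⟨e6, e8, e4, ?_⟩
  have : B2 * B6 = 4*B8 + B4^2 := by linear_combination -hrel
  have h2 : B2 = (4*B8 + B4^2)/B6 := by field_simp; linear_combination this
  rw [h2]
  simp only [μ, lam]
  field_simp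
  linear_combination (B4*B8*B6^2 + B6^4 + B8^3) * h5

end Param

section Defs
variable {F : Type*} [Field F] (W : WeierstrassCurve.Affine F)

/-- the Tate-normal-form parameter `λ` of a 5-torsion point with `x`-coordinate `x₁` -/
noncomputable def lamOf (x₁ : F) : F := - p3 W x₁ ^3 / dd W x₁ ^4
/-- the scaling parameter `μ = u²` -/
noncomputable def muOf (x₁ : F) : F := dd W x₁ ^3 / p3 W x₁ ^2
/-- `x(2Q) - x(Q)` -/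
noncomputable def delOf (x₁ : F) : F := - p3 W x₁ / dd W x₁
/-- the affine ratio `z = (x₀ - x₁)/(x₂ - x₁)` -/
noncomputable def zOf (x₀ x₁ : F) : F := (x₀ - x₁) / delOf W x₁
/-- `v = z(z-1)` -/
noncomputable def vOf (x₀ x₁ : F) : F := zOf W x₀ x₁ * (zOf W x₀ x₁ - 1)
/-- the second coordinate on `X₀(15)` -/
noncomputable def sOf (x₀ x₁ : F) : F :=
  (2 * zOf W x₀ x₁ - 1) *
    (2 * lamOf W x₁ * zOf W x₀ x₁ ^2 / (zOf W x₀ x₁ - 1) + 3 * vOf W x₀ x₁)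
/-- the Hauptmodul of `X₀(5)` -/
noncomputable def kOf (x₁ : F) : F := lamOf W x₁ - 1 / lamOf W x₁ - 11

lemma c₄_eq (x : F) : W.c₄ = bb2 W x ^2 - 24 * bb4 W x := by
  simp only [WeierstrassCurve.c₄, bb2, bb4]; ring

lemma dupX_eq_add (x : F) : dupX W x = x + delOf W x := by
  rw [dupX, delOf]; ring

variable {W}

/-- the basic parametrisation at a root of `ψ₅` -/
lemma param_at (hΔ : W.Δ ≠ 0) {x₁ : F} (h5 : p5 W x₁ = 0) :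
    muOf W x₁ ≠ 0 ∧ lamOf W x₁ ≠ 0 ∧
    dd W x₁ = muOf W x₁ ^3 * lamOf W x₁ ^2 ∧ p3 W x₁ = - muOf W x₁ ^4 * lamOf W x₁ ^3 ∧
    bb4 W x₁ = muOf W x₁ ^2 * (lamOf W x₁ ^2 - lamOf W x₁) ∧
    bb2 W x₁ = muOf W x₁ * (lamOf W x₁ ^2 - 6 * lamOf W x₁ + 1) ∧
    delOf W x₁ = muOf W x₁ * lamOf W x₁ := by
  obtain ⟨h6, h8, -⟩ := p5_ne W hΔ h5
  have h5' : (bb4 W x₁ * p3 W x₁ - dd W x₁ ^ 2) * dd W x₁ ^ 2 - p3 W x₁ ^ 3 = 0 := by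
    rw [← p5_eq, h5]
  obtain ⟨e6, e8, e4, e2⟩ := param_five (bb2 W x₁) (bb4 W x₁) (dd W x₁) (p3 W x₁)
    (bb_relation W x₁) h5' h6 h8
  refine ⟨?_, ?_, e6, e8, e4, e2, ?_⟩
  · rw [muOf]; exact div_ne_zero (pow_ne_zero _ h6) (pow_ne_zero _ h8)
  · rw [lamOf]; exact div_ne_zero (neg_ne_zero.mpr (pow_ne_zero _ h8)) (pow_ne_zero _ h6)
  · rw [delOf, muOf, lamOf]; field_simp

end Defs

section X015
variable {F : Type*} [Field F]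

lemma x015_S_sq (lam z : F) (hz1 : z - 1 ≠ 0)
    (hC : z^3*lam^2 + 3*z^2*(z-1)^2*lam + (z-1)^3 = 0) :
    ((2*z-1)*(2*lam*z^2/(z-1) + 3*(z*(z-1))))^2
      = (z*(z-1))*(4*(z*(z-1))+1)*(9*(z*(z-1))-4) := by
  field_simp
  linear_combination (4 * z * (2*z-1)^2) * hC

lemma x015_k (lam z : F) (hlam : lam ≠ 0) (hz1 : z - 1 ≠ 0)
    (hC : z^3*lam^2 + 3*z^2*(z-1)^2*lam + (z-1)^3 = 0) :
    2*(z*(z-1))^2*(lam - 1/lam - 11) = -13*(z*(z-1))^2 + 3*(z*(z-1))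
      + ((z*(z-1))+1)*((2*z-1)*(2*lam*z^2/(z-1) + 3*(z*(z-1)))) := by
  field_simp
  linear_combination (-2 * z^2) * hC

lemma x015_S_swap (lam z : F) (hlam : lam ≠ 0) (hz1 : z - 1 ≠ 0) (hz : z ≠ 0)
    (hC : z^3*lam^2 + 3*z^2*(z-1)^2*lam + (z-1)^3 = 0) :
    (2*(1-z)-1)*(2*(-1/lam)*(1-z)^2/((1-z)-1) + 3*((1-z)*((1-z)-1)))
      = (2*z-1)*(2*lam*z^2/(z-1) + 3*(z*(z-1))) := by
  have h1 : (1 - z) - 1 = -z := by ring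
  rw [h1]
  field_simp
  linear_combination (-2 * (2*z-1)) * hC

end X015

section Main
variable {F : Type*} [Field F] {W : WeierstrassCurve.Affine F}

lemma Δ_param (hΔ : W.Δ ≠ 0) {x₁ : F} (h5 : p5 W x₁ = 0) :
    W.Δ = muOf W x₁ ^6 * lamOf W x₁ ^5 * (lamOf W x₁ ^2 - 11 * lamOf W x₁ - 1) := by
  obtain ⟨-, -, e6, e8, e4, e2, -⟩ := param_at hΔ h5
  rw [Δ_eq W x₁, e2, e4, e6, e8]; ring

lemma c₄_param (hΔ : W.Δ ≠ 0) {x₁ : F} (h5 : p5 W x₁ = 0) :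
    W.c₄ = muOf W x₁ ^2 *
      (lamOf W x₁ ^4 - 12 * lamOf W x₁ ^3 + 14 * lamOf W x₁ ^2 + 12 * lamOf W x₁ + 1) := by
  obtain ⟨-, -, e6, e8, e4, e2, -⟩ := param_at hΔ h5
  rw [c₄_eq W x₁, e2, e4]; ring

lemma kOf_ne_zero (hΔ : W.Δ ≠ 0) {x₁ : F} (h5 : p5 W x₁ = 0) : kOf W x₁ ≠ 0 := by
  obtain ⟨hμ, hlam, -⟩ := param_at hΔ h5
  have hD := Δ_param hΔ h5
  have hq : lamOf W x₁ ^2 - 11 * lamOf W x₁ - 1 ≠ 0 := by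
    intro h
    rw [h, mul_zero] at hD
    exact hΔ hD
  rw [kOf]
  have : lamOf W x₁ - 1 / lamOf W x₁ - 11
      = (lamOf W x₁ ^2 - 11 * lamOf W x₁ - 1) / lamOf W x₁ := by
    field_simp
    ring
  rw [this]
  exact div_ne_zero hq hlam

lemma c₄_kOf (hΔ : W.Δ ≠ 0) {x₁ : F} (h5 : p5 W x₁ = 0) :
    W.c₄ ^3 * kOf W x₁ = (kOf W x₁ ^2 + 10 * kOf W x₁ + 5)^3 * W.Δ := by
  obtain ⟨hμ, hlam, -⟩ := param_at hΔ h5
  rw [c₄_param hΔ h5, Δ_param hΔ h5, kOf]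
  field_simp
  ring

/-- the defining relation of the double cover `X(Γ₁(5) ∩ Γ₀(3))` of `X₀(15)` -/
lemma crel (hΔ : W.Δ ≠ 0) {x₀ x₁ : F} (h3 : p3 W x₀ = 0) (h5 : p5 W x₁ = 0) :
    zOf W x₀ x₁ ^3 * lamOf W x₁ ^2 + 3 * zOf W x₀ x₁ ^2 * (zOf W x₀ x₁ - 1)^2 * lamOf W x₁
      + (zOf W x₀ x₁ - 1)^3 = 0 := by
  obtain ⟨hμ, hlam, e6, e8, e4, e2, ed⟩ := param_at hΔ h5
  have hδ : delOf W x₁ ≠ 0 := by rw [ed]; exact mul_ne_zero hμ hlam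
  have hx₀ : x₀ = x₁ + zOf W x₀ x₁ * delOf W x₁ := by
    rw [zOf]; field_simp; ring
  rw [hx₀, p3_add, e6, e8, e4, e2, ed] at h3
  have hfac : muOf W x₁ ^4 * lamOf W x₁ ^3 *
      (zOf W x₀ x₁ ^3 * lamOf W x₁ ^2 + 3 * zOf W x₀ x₁ ^2 * (zOf W x₀ x₁ - 1)^2 * lamOf W x₁
        + (zOf W x₀ x₁ - 1)^3) = 0 := by
    linear_combination h3
  rcases mul_eq_zero.mp hfac with h | h
  · exact absurd h (mul_ne_zero (pow_ne_zero _ hμ) (pow_ne_zero _ hlam))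
  · exact h

lemma zOf_ne_zero (hΔ : W.Δ ≠ 0) {x₀ x₁ : F} (h3 : p3 W x₀ = 0) (h5 : p5 W x₁ = 0) :
    zOf W x₀ x₁ ≠ 0 := by
  intro hz
  have := crel hΔ h3 h5
  rw [hz] at this
  norm_num at this

lemma zOf_sub_one_ne_zero (hΔ : W.Δ ≠ 0) {x₀ x₁ : F} (h3 : p3 W x₀ = 0) (h5 : p5 W x₁ = 0) :
    zOf W x₀ x₁ - 1 ≠ 0 := by
  intro hz
  have := crel hΔ h3 h5
  obtain ⟨hμ, hlam, -⟩ := param_at hΔ h5
  have hz1 : zOf W x₀ x₁ = 1 := by linear_combination hz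
  rw [hz1] at this
  have : lamOf W x₁ ^2 = 0 := by linear_combination this
  exact hlam (pow_eq_zero_iff (two_ne_zero) |>.mp this)

lemma vOf_ne_zero (hΔ : W.Δ ≠ 0) {x₀ x₁ : F} (h3 : p3 W x₀ = 0) (h5 : p5 W x₁ = 0) :
    vOf W x₀ x₁ ≠ 0 :=
  mul_ne_zero (zOf_ne_zero hΔ h3 h5) (zOf_sub_one_ne_zero hΔ h3 h5)

lemma sOf_sq (hΔ : W.Δ ≠ 0) {x₀ x₁ : F} (h3 : p3 W x₀ = 0) (h5 : p5 W x₁ = 0) :
    sOf W x₀ x₁ ^2 = vOf W x₀ x₁ * (4 * vOf W x₀ x₁ + 1) * (9 * vOf W x₀ x₁ - 4) := by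
  rw [sOf, vOf]
  exact x015_S_sq _ _ (zOf_sub_one_ne_zero hΔ h3 h5) (crel hΔ h3 h5)

lemma kOf_eq (hΔ : W.Δ ≠ 0) {x₀ x₁ : F} (h3 : p3 W x₀ = 0) (h5 : p5 W x₁ = 0) :
    2 * vOf W x₀ x₁ ^2 * kOf W x₁ = -13 * vOf W x₀ x₁ ^2 + 3 * vOf W x₀ x₁
      + (vOf W x₀ x₁ + 1) * sOf W x₀ x₁ := by
  rw [sOf, vOf, kOf]
  exact x015_k _ _ (param_at hΔ h5).2.1 (zOf_sub_one_ne_zero hΔ h3 h5) (crel hΔ h3 h5)

/-! ### Invariance under `x₁ ↦ dupX x₁` -/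

lemma dd_p3_dupX (hΔ : W.Δ ≠ 0) {x₁ : F} (h5 : p5 W x₁ = 0) :
    dd W (dupX W x₁) = muOf W x₁ ^3 * lamOf W x₁ ^4 ∧
      p3 W (dupX W x₁) = muOf W x₁ ^4 * lamOf W x₁ ^5 := by
  obtain ⟨hμ, hlam, e6, e8, e4, e2, ed⟩ := param_at hΔ h5
  rw [dupX_eq_add, dd_add, p3_add, e6, e8, e4, e2, ed]
  constructor <;> ring

lemma lamOf_dupX (hΔ : W.Δ ≠ 0) {x₁ : F} (h5 : p5 W x₁ = 0) :
    lamOf W (dupX W x₁) = -1 / lamOf W x₁ := by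
  obtain ⟨hμ, hlam, -⟩ := param_at hΔ h5
  obtain ⟨e1, e2⟩ := dd_p3_dupX hΔ h5
  rw [lamOf, e1, e2]
  field_simp

lemma delOf_dupX (hΔ : W.Δ ≠ 0) {x₁ : F} (h5 : p5 W x₁ = 0) :
    delOf W (dupX W x₁) = - delOf W x₁ := by
  obtain ⟨hμ, hlam, _, _, _, _, ed⟩ := param_at hΔ h5
  obtain ⟨e1, e2⟩ := dd_p3_dupX hΔ h5
  rw [delOf, e1, e2, ed]
  field_simp

lemma dupX_dupX_eq (hΔ : W.Δ ≠ 0) {x₁ : F} (h5 : p5 W x₁ = 0) :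
    dupX W (dupX W x₁) = x₁ := by
  rw [dupX_eq_add W (dupX W x₁), delOf_dupX hΔ h5, dupX_eq_add]; ring

lemma zOf_dupX (hΔ : W.Δ ≠ 0) {x₀ x₁ : F} (h5 : p5 W x₁ = 0) :
    zOf W x₀ (dupX W x₁) = 1 - zOf W x₀ x₁ := by
  obtain ⟨hμ, hlam, _, _, _, _, ed⟩ := param_at hΔ h5
  have hδ : delOf W x₁ ≠ 0 := by rw [ed]; exact mul_ne_zero hμ hlam
  rw [zOf, zOf, delOf_dupX hΔ h5, dupX_eq_add]
  field_simp
  ring

lemma vOf_dupX (hΔ : W.Δ ≠ 0) {x₀ x₁ : F} (h5 : p5 W x₁ = 0) :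
    vOf W x₀ (dupX W x₁) = vOf W x₀ x₁ := by
  rw [vOf, vOf, zOf_dupX hΔ h5]; ring

lemma kOf_dupX (hΔ : W.Δ ≠ 0) {x₁ : F} (h5 : p5 W x₁ = 0) :
    kOf W (dupX W x₁) = kOf W x₁ := by
  obtain ⟨hμ, hlam, -⟩ := param_at hΔ h5
  rw [kOf, kOf, lamOf_dupX hΔ h5]
  field_simp
  ring

lemma sOf_dupX (hΔ : W.Δ ≠ 0) {x₀ x₁ : F} (h3 : p3 W x₀ = 0) (h5 : p5 W x₁ = 0) :
    sOf W x₀ (dupX W x₁) = sOf W x₀ x₁ := by
  rw [sOf, sOf, vOf, vOf, zOf_dupX hΔ h5, lamOf_dupX hΔ h5]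
  exact x015_S_swap _ _ (param_at hΔ h5).2.1 (zOf_sub_one_ne_zero hΔ h3 h5)
    (zOf_ne_zero hΔ h3 h5) (crel hΔ h3 h5)

end Main

end Fermat.Agent.Lib.S51
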