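/-
S51, work package 3: the rational points of `Y^2 = X (X - 1) (X - 81)` (the curve 15a2) are
exactly the 2-torsion points, i.e. `Y = 0`.

Proof: complete 2-descent made explicit and elementary.
* `step1`, `step2`, `step3`: for coprime `u > 81 v > 0` with `u v (u - v) (u - 81 v)` a square,
  `v = e^2`, `u = a^2` and `(u - v, u - 81 v) = (b^2, c^2)` or `(5 b^2, 5 c^2)`.
* `lemmaE`: in both cases one gets a solution of the concordant system
  `a^2 = e^2 + b^2 = 81 e^2 + c^2` (translating by the point `(81, 0)` in the second case).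
* `descent_step`, `no_sol`: infinite descent (halving the point) shows the system has no solution.
* `rat_points`: the final statement.
-/
import Mathlib

set_option autoImplicit false
set_option linter.unusedVariables false

namespace Fermat.Agent.Lib.S51


/-- coprime factors of a perfect square are perfect squares -/
theorem sq_of_coprime_mul {a b c : ℕ} (hab : Nat.Coprime a b) (h : a * b = c ^ 2) :
    ∃ d, a = d ^ 2 :=
  exists_eq_pow_of_mul_eq_pow (by rw [Nat.isUnit_iff]; exact hab) h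

theorem sq_of_coprime_mul' {a b c : ℕ} (hab : Nat.Coprime a b) (h : a * b = c ^ 2) :
    ∃ d, b = d ^ 2 :=
  sq_of_coprime_mul hab.symm (by rw [mul_comm]; exact h)

/-- if `g^2 * m` is a square then `m` is a square (for `g > 0`) -/
theorem sq_of_sq_mul {g m n : ℕ} (hg : 0 < g) (h : g ^ 2 * m = n ^ 2) : ∃ k, m = k ^ 2 := by
  have hdvd : g ∣ n := by
    have : g ^ 2 ∣ n ^ 2 := ⟨m, h.symm⟩
    exact (Nat.pow_dvd_pow_iff (by norm_num)).mp this
  obtain ⟨k, rfl⟩ := hdvd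
  refine ⟨k, ?_⟩
  have hg2 : 0 < g ^ 2 := by positivity
  apply Nat.eq_of_mul_eq_mul_left hg2
  rw [h]; ring

theorem not_sq_mod3 (x y : ZMod 3) (hy : y ≠ 0) : x ^ 2 ≠ - y ^ 2 := by
  revert x y; decide

theorem not_sq_mod8_a (g b e : ZMod 8) (hb : b ^ 2 = 1) (he : e ^ 2 = 1) : g ^ 2 ≠ b ^ 2 - 10 * e ^ 2 := by
  revert g b e; decide

theorem not_sq_mod8_b (g b e : ZMod 8) (hb : b ^ 2 = 1) (he : e ^ 2 = 1) : g ^ 2 ≠ b ^ 2 - 2 * e ^ 2 := by
  revert g b e; decide


theorem diff_sq_mod8_a (b g e : ZMod 8) (he : e ^ 2 = 1) : b ^ 2 ≠ g ^ 2 + 10 * e ^ 2 := by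
  revert b g e; decide

theorem diff_sq_mod8_b (b g e : ZMod 8) (he : e ^ 2 = 1) : b ^ 2 ≠ g ^ 2 + 2 * e ^ 2 := by
  revert b g e; decide

theorem odd_sq_zmod8 (a : ℕ) (ha : Odd a) : ((a : ZMod 8)) ^ 2 = 1 := by
  have h : ∀ x : ZMod 8, x.val % 2 = 1 → x ^ 2 = 1 := by decide
  apply h
  rw [ZMod.val_natCast]
  have : a % 2 = 1 := Nat.odd_iff.mp ha
  omega

/-- first step: the denominator is a square and the cofactor is a square -/
theorem step1 (u v B C n : ℕ) (hv : 0 < v) (hB : B + v = u) (hC : C + 81 * v = u)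
    (hcop : Nat.Coprime u v) (hsq : u * v * B * C = n ^ 2) :
    ∃ e n₁ : ℕ, 0 < e ∧ v = e ^ 2 ∧ u * B * C = n₁ ^ 2 := by
  have hvu : Nat.Coprime v u := hcop.symm
  have hvB : Nat.Coprime v B := by
    have : Nat.Coprime v (B + v) := by rw [hB]; exact hvu
    exact Nat.coprime_add_self_right.mp this
  have hvC : Nat.Coprime v C := by
    have : Nat.Coprime v (C + 81 * v) := by rw [hC]; exact hvu
    exact (Nat.coprime_add_mul_right_right v C 81).mp this
  have hcop' : Nat.Coprime v (u * B * C) := (hvu.mul_right hvB).mul_right hvC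
  have hsq' : v * (u * B * C) = n ^ 2 := by rw [← hsq]; ring
  obtain ⟨e, he⟩ := sq_of_coprime_mul hcop' hsq'
  have he0 : 0 < e := by
    rcases Nat.eq_zero_or_pos e with h | h
    · subst h; simp at he; omega
    · exact h
  rw [he] at hsq'
  obtain ⟨n₁, hn₁⟩ := sq_of_sq_mul he0 hsq'
  exact ⟨e, n₁, he0, he, hn₁⟩


/-- second step: the numerator is a square -/
theorem step2 (u e B C n₁ : ℕ) (he : 0 < e) (hB : B + e ^ 2 = u) (hC : C + 81 * e ^ 2 = u)
    (hC0 : 0 < C) (hcop : Nat.Coprime u (e ^ 2)) (hsq : u * B * C = n₁ ^ 2) :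
    ∃ a : ℕ, u = a ^ 2 := by
  have hu0 : 0 < u := by omega
  -- coprimality facts
  have huB : Nat.Coprime u B := by
    have h1 : Nat.Coprime (e ^ 2) (B + e ^ 2) := by rw [hB]; exact hcop.symm
    have h2 : Nat.Coprime (e ^ 2) B := Nat.coprime_add_self_right.mp h1
    have h3 : Nat.Coprime (B + e ^ 2) B := by
      rw [Nat.coprime_comm, add_comm]
      exact (Nat.coprime_add_self_right).mpr h2.symm
    rw [hB] at h3; exact h3
  obtain ⟨u₀, C₀, hcop₀, hu₀, hC₀⟩ := Nat.exists_coprime u C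
  set g := Nat.gcd u C with hg
  have hg0 : 0 < g := Nat.gcd_pos_of_pos_left _ hu0
  have hgu : g ∣ u := Nat.gcd_dvd_left _ _
  have hgC : g ∣ C := Nat.gcd_dvd_right _ _
  have hg81 : g ∣ 3 ^ 4 := by
    have h3 : g ∣ 81 * e ^ 2 := (Nat.dvd_add_right hgC).mp (hC ▸ hgu)
    have h4 : Nat.Coprime g (e ^ 2) := Nat.Coprime.coprime_dvd_left hgu hcop
    exact h4.dvd_of_dvd_mul_right h3
  obtain ⟨k, hk4, hgk⟩ := (Nat.dvd_prime_pow Nat.prime_three).mp hg81
  -- `u₀ * (C₀ * B)` is a square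
  have hsq₂ : g ^ 2 * (u₀ * (C₀ * B)) = n₁ ^ 2 := by
    rw [← hsq]
    conv_rhs => rw [hu₀, hC₀]
    ring
  obtain ⟨n₂, hn₂⟩ := sq_of_sq_mul hg0 hsq₂
  have hu₀B : Nat.Coprime u₀ B :=
    Nat.Coprime.coprime_dvd_left (Dvd.intro _ hu₀.symm) huB
  obtain ⟨w, hw⟩ := sq_of_coprime_mul (hcop₀.mul_right hu₀B) hn₂
  -- the relation between `u₀` and `C₀`
  have hrel : C₀ * g + 81 * e ^ 2 = u₀ * g := by rw [← hu₀, ← hC₀]; exact hC
  -- 3 does not divide e when 3 divides u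
  have h3e : 3 ∣ u → ¬ 3 ∣ e := by
    intro h3u h3e
    have : 3 ∣ Nat.gcd u (e ^ 2) := Nat.dvd_gcd h3u (dvd_pow h3e (by norm_num))
    rw [hcop] at this
    omega
  -- contradiction in the bad cases
  have bad : ∀ t : ℕ, 3 ∣ g → C₀ + 3 * t * e ^ 2 = u₀ → False := by
    intro t h3g hrel'
    have h3u : 3 ∣ u := h3g.trans hgu
    have h3e' := h3e h3u
    have h3u₀ : ¬ 3 ∣ u₀ := by
      intro h
      have h3C₀ : 3 ∣ C₀ := by
        have : 3 ∣ C₀ + 3 * t * e ^ 2 := by rw [hrel']; exact h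
        have h2 : 3 ∣ 3 * t * e ^ 2 := ⟨t * e ^ 2, by ring⟩
        exact (Nat.dvd_add_left h2).mp this
      have := Nat.dvd_gcd h h3C₀
      rw [hcop₀] at this
      omega
    have e1 : ((u₀ : ℕ) : ZMod 3) = (C₀ : ZMod 3) := by
      rw [← hrel']
      push_cast
      have : (3 : ZMod 3) = 0 := by decide
      rw [this]; ring
    have e2 : ((B : ℕ) : ZMod 3) = - (e : ZMod 3) ^ 2 := by
      have : ((B + e ^ 2 : ℕ) : ZMod 3) = 0 := by
        rw [hB]; exact (ZMod.natCast_eq_zero_iff _ _).mpr h3u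
      push_cast at this
      linear_combination this
    have e3 : ((n₂ : ℕ) : ZMod 3) ^ 2 = - ((u₀ : ZMod 3) * (e : ZMod 3)) ^ 2 := by
      have : ((u₀ * (C₀ * B) : ℕ) : ZMod 3) = ((n₂ ^ 2 : ℕ) : ZMod 3) := by rw [hn₂]
      push_cast at this
      rw [← this, ← e1, e2]; ring
    refine not_sq_mod3 _ _ ?_ e3
    intro h0
    have : ((u₀ * e : ℕ) : ZMod 3) = 0 := by push_cast; exact h0
    rw [ZMod.natCast_eq_zero_iff] at this
    rcases (Nat.Prime.dvd_mul Nat.prime_three).mp this with h | h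
    · exact h3u₀ h
    · exact h3e' h
  interval_cases k
  · -- g = 1
    refine ⟨w, ?_⟩
    rw [hu₀, hw, hgk]; ring
  · -- g = 3
    exfalso
    rw [hgk] at hrel
    exact bad 9 (by rw [hgk]; norm_num) (by nlinarith)
  · -- g = 9
    refine ⟨3 * w, ?_⟩
    rw [hu₀, hw, hgk]; ring
  · -- g = 27
    exfalso
    rw [hgk] at hrel
    exact bad 1 (by rw [hgk]; norm_num) (by nlinarith)
  · -- g = 81
    refine ⟨9 * w, ?_⟩
    rw [hu₀, hw, hgk]; ring


theorem eight_dvd_of_odd_sq (a e B : ℕ) (ha : Odd a) (he : Odd e) (hB : B + e ^ 2 = a ^ 2) :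
    8 ∣ B := by
  have h : ((B : ℕ) : ZMod 8) = 0 := by
    have h1 : ((B + e ^ 2 : ℕ) : ZMod 8) = ((a ^ 2 : ℕ) : ZMod 8) := by rw [hB]
    push_cast at h1
    rw [odd_sq_zmod8 a ha, odd_sq_zmod8 e he] at h1
    linear_combination h1
  exact (ZMod.natCast_eq_zero_iff _ _).mp h

/-- third step: the classes of `B` and `C` -/
theorem step3 (a e B C n₁ : ℕ) (he : 0 < e) (hB : B + e ^ 2 = a ^ 2) (hC : C + 81 * e ^ 2 = a ^ 2)
    (hC0 : 0 < C) (hcop : Nat.Coprime a e) (hsq : a ^ 2 * B * C = n₁ ^ 2) :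
    ∃ b c : ℕ, (B = b ^ 2 ∧ C = c ^ 2) ∨ (B = 5 * b ^ 2 ∧ C = 5 * c ^ 2) := by
  have ha0 : 0 < a := by
    rcases Nat.eq_zero_or_pos a with h | h
    · subst h; simp at hC; omega
    · exact h
  have hB0 : 0 < B := by nlinarith
  have hBC : B = C + 80 * e ^ 2 := by omega
  have hcop2 : Nat.Coprime (a ^ 2) (e ^ 2) := Nat.Coprime.pow 2 2 hcop
  -- `B` is coprime to `e^2`
  have hBe : Nat.Coprime B (e ^ 2) := by
    have h1 : Nat.Coprime (e ^ 2) (B + e ^ 2) := by rw [hB]; exact hcop2.symm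
    exact (Nat.coprime_add_self_right.mp h1).symm
  obtain ⟨B₀, C₀, hcop₀, hB₀, hC₀⟩ := Nat.exists_coprime B C
  set h := Nat.gcd B C with hh
  have hh0 : 0 < h := Nat.gcd_pos_of_pos_left _ hB0
  have hhB : h ∣ B := Nat.gcd_dvd_left _ _
  have hhC : h ∣ C := Nat.gcd_dvd_right _ _
  have hh80 : h ∣ 80 := by
    have h3 : h ∣ 80 * e ^ 2 := (Nat.dvd_add_right hhC).mp (hBC ▸ hhB)
    have h4 : Nat.Coprime h (e ^ 2) := Nat.Coprime.coprime_dvd_left hhB hBe
    exact h4.dvd_of_dvd_mul_right h3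
  -- `B₀ * C₀` is a square
  have hsq₂ : (a * h) ^ 2 * (B₀ * C₀) = n₁ ^ 2 := by
    rw [← hsq]
    conv_rhs => rw [hB₀, hC₀]
    ring
  obtain ⟨n₃, hn₃⟩ := sq_of_sq_mul (Nat.mul_pos ha0 hh0) hsq₂
  obtain ⟨β, hβ⟩ := sq_of_coprime_mul hcop₀ hn₃
  obtain ⟨γ, hγ⟩ := sq_of_coprime_mul' hcop₀ hn₃
  -- relation between the cofactors
  have hrel : B₀ * h = C₀ * h + 80 * e ^ 2 := by rw [← hB₀, ← hC₀]; exact hBC
  -- if `h` is even then `8 ∣ h` and `e` is odd
  have heven : 2 ∣ h → 8 ∣ h ∧ Odd e := by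
    intro h2
    have h2B : 2 ∣ B := h2.trans hhB
    have hae : ¬ (2 ∣ a ∧ 2 ∣ e) := by
      rintro ⟨h1, h2⟩
      have := Nat.dvd_gcd h1 h2
      rw [hcop] at this
      omega
    have hpar : (a ^ 2) % 2 = (e ^ 2) % 2 := by omega
    have ha_odd : Odd a := by
      rw [← Nat.not_even_iff_odd]
      intro hev
      have h1 : 2 ∣ a := hev.two_dvd
      have h2' : 2 ∣ a ^ 2 := dvd_pow h1 (by norm_num)
      have h3 : 2 ∣ e ^ 2 := by omega
      exact hae ⟨h1, Nat.Prime.dvd_of_dvd_pow Nat.prime_two h3⟩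
    have he_odd : Odd e := by
      rw [← Nat.not_even_iff_odd]
      intro hev
      have h1 : 2 ∣ e := hev.two_dvd
      have h2' : 2 ∣ e ^ 2 := dvd_pow h1 (by norm_num)
      have h3 : 2 ∣ a ^ 2 := by omega
      exact hae ⟨Nat.Prime.dvd_of_dvd_pow Nat.prime_two h3, h1⟩
    have h8B : 8 ∣ B := eight_dvd_of_odd_sq a e B ha_odd he_odd hB
    have h8C : 8 ∣ C := by
      have : 8 ∣ 80 * e ^ 2 := ⟨10 * e ^ 2, by ring⟩
      exact (Nat.dvd_add_left this).mp (hBC ▸ h8B)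
    exact ⟨Nat.dvd_gcd h8B h8C, he_odd⟩
  have hmem : h ∈ Nat.divisors 80 := Nat.mem_divisors.mpr ⟨hh80, by norm_num⟩
  have hdiv : Nat.divisors 80 = {1, 2, 4, 5, 8, 10, 16, 20, 40, 80} := by decide
  rw [hdiv] at hmem
  simp only [Finset.mem_insert, Finset.mem_singleton] at hmem
  rcases hmem with h1 | h1 | h1 | h1 | h1 | h1 | h1 | h1 | h1 | h1
  · -- h = 1
    exact ⟨β, γ, Or.inl ⟨by rw [hB₀, hβ, h1]; ring, by rw [hC₀, hγ, h1]; ring⟩⟩
  · -- h = 2
    exfalso
    have := (heven (by rw [h1])).1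
    rw [h1] at this; omega
  · -- h = 4
    exfalso
    have := (heven (by rw [h1]; norm_num)).1
    rw [h1] at this; omega
  · -- h = 5
    exact ⟨β, γ, Or.inr ⟨by rw [hB₀, hβ, h1]; ring, by rw [hC₀, hγ, h1]; ring⟩⟩
  · -- h = 8
    exfalso
    have he_odd := (heven (by rw [h1]; norm_num)).2
    rw [h1, hβ, hγ] at hrel
    have hrel' : β ^ 2 = γ ^ 2 + 10 * e ^ 2 := by omega
    have hz : ((β ^ 2 : ℕ) : ZMod 8) = ((γ ^ 2 + 10 * e ^ 2 : ℕ) : ZMod 8) := by rw [hrel']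
    push_cast at hz
    exact diff_sq_mod8_a _ _ _ (odd_sq_zmod8 e he_odd) hz
  · -- h = 10
    exfalso
    have := (heven (by rw [h1]; norm_num)).1
    rw [h1] at this; omega
  · -- h = 16
    exact ⟨4 * β, 4 * γ, Or.inl ⟨by rw [hB₀, hβ, h1]; ring, by rw [hC₀, hγ, h1]; ring⟩⟩
  · -- h = 20
    exfalso
    have := (heven (by rw [h1]; norm_num)).1
    rw [h1] at this; omega
  · -- h = 40
    exfalso
    have he_odd := (heven (by rw [h1]; norm_num)).2
    rw [h1, hβ, hγ] at hrel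
    have hrel' : β ^ 2 = γ ^ 2 + 2 * e ^ 2 := by omega
    have hz : ((β ^ 2 : ℕ) : ZMod 8) = ((γ ^ 2 + 2 * e ^ 2 : ℕ) : ZMod 8) := by rw [hrel']
    push_cast at hz
    exact diff_sq_mod8_b _ _ _ (odd_sq_zmod8 e he_odd) hz
  · -- h = 80
    exact ⟨4 * β, 4 * γ, Or.inr ⟨by rw [hB₀, hβ, h1]; ring, by rw [hC₀, hγ, h1]; ring⟩⟩


/-- The system of "concordant forms" to which everything is reduced. -/
def IsSol (a e b c : ℕ) : Prop :=
  0 < e ∧ 0 < b ∧ 0 < c ∧ Nat.Coprime a e ∧ a ^ 2 = e ^ 2 + b ^ 2 ∧ a ^ 2 = 81 * e ^ 2 + c ^ 2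

theorem coprime_of_sq {a e : ℕ} (h : Nat.Coprime (a ^ 2) (e ^ 2)) : Nat.Coprime a e :=
  Nat.Coprime.coprime_dvd_left (dvd_pow_self a two_ne_zero)
    (Nat.Coprime.coprime_dvd_right (dvd_pow_self e two_ne_zero) h)

/-- cancel a common square factor in a Pythagorean-type relation -/
theorem exists_of_sq_add (g a e m : ℕ) (hg : 0 < g) (h : m ^ 2 + (e * g) ^ 2 = (a * g) ^ 2) :
    ∃ b, m = g * b ∧ b ^ 2 + e ^ 2 = a ^ 2 := by
  have hdvd : g ^ 2 ∣ m ^ 2 := by
    have h1 : g ^ 2 ∣ (e * g) ^ 2 := ⟨e ^ 2, by ring⟩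
    have h2 : g ^ 2 ∣ m ^ 2 + (e * g) ^ 2 := by rw [h]; exact ⟨a ^ 2, by ring⟩
    exact (Nat.dvd_add_left h1).mp h2
  have hgm : g ∣ m := (Nat.pow_dvd_pow_iff (by norm_num)).mp hdvd
  obtain ⟨b, rfl⟩ := hgm
  refine ⟨b, rfl, ?_⟩
  have hg2 : 0 < g ^ 2 := by positivity
  apply Nat.eq_of_mul_eq_mul_left hg2
  nlinarith [h]

/-- Lemma E: from a point with `x > 81` to a solution of the concordant system, with a bound. -/
theorem lemmaE (u v B C n : ℕ) (hv : 0 < v) (hB : B + v = u) (hC : C + 81 * v = u)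
    (hC0 : 0 < C) (hcop : Nat.Coprime u v) (hsq : u * v * B * C = n ^ 2) :
    ∃ a e b c : ℕ, IsSol a e b c ∧ 5 * a ^ 2 ≤ 81 * u := by
  obtain ⟨e₁, n₁, he₁, hve, hsq₁⟩ := step1 u v B C n hv hB hC hcop hsq
  subst hve
  obtain ⟨a₁, hua⟩ := step2 u e₁ B C n₁ he₁ hB hC hC0 hcop hsq₁
  subst hua
  have hcop₁ : Nat.Coprime a₁ e₁ := coprime_of_sq hcop
  obtain ⟨b₁, c₁, hcase⟩ := step3 a₁ e₁ B C n₁ he₁ hB hC hC0 hcop₁ hsq₁
  have hB0 : 0 < B := by
    have : 0 < e₁ ^ 2 := by positivity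
    omega
  rcases hcase with ⟨hBb, hCc⟩ | ⟨hBb, hCc⟩
  · -- class (1,1,1)
    subst hBb hCc
    refine ⟨a₁, e₁, b₁, c₁, ⟨he₁, ?_, ?_, hcop₁, by omega, by omega⟩, by omega⟩
    · rcases Nat.eq_zero_or_pos b₁ with h | h
      · subst h; simp at hB0
      · exact h
    · rcases Nat.eq_zero_or_pos c₁ with h | h
      · subst h; simp at hC0
      · exact h
  · -- class (1,5,5): translate
    subst hBb hCc
    have hb₁ : 0 < b₁ := by
      rcases Nat.eq_zero_or_pos b₁ with h | h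
      · subst h; simp at hB0
      · exact h
    have hc₁ : 0 < c₁ := by
      rcases Nat.eq_zero_or_pos c₁ with h | h
      · subst h; simp at hC0
      · exact h
    have ha₁ : 0 < a₁ := by
      rcases Nat.eq_zero_or_pos a₁ with h | h
      · subst h; simp at hB; omega
      · exact h
    obtain ⟨a₂, e₂, hcop₂, ha₂, he₂⟩ := Nat.exists_coprime (9 * b₁) c₁
    set g := Nat.gcd (9 * b₁) c₁ with hg
    have hg0 : 0 < g := Nat.gcd_pos_of_pos_right _ hc₁
    -- key identities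
    have id1 : (4 * a₁) ^ 2 + c₁ ^ 2 = (9 * b₁) ^ 2 := by nlinarith
    have id2 : (36 * e₁) ^ 2 + 81 * c₁ ^ 2 = (9 * b₁) ^ 2 := by nlinarith
    have id1' : (4 * a₁) ^ 2 + (e₂ * g) ^ 2 = (a₂ * g) ^ 2 := by rw [← ha₂, ← he₂]; exact id1
    have id2' : (36 * e₁) ^ 2 + (9 * e₂ * g) ^ 2 = (a₂ * g) ^ 2 := by
      rw [← ha₂]
      have : (9 * e₂ * g) ^ 2 = 81 * c₁ ^ 2 := by rw [he₂]; ring
      rw [this]; exact id2
    obtain ⟨b₂, hb₂, hb₂'⟩ := exists_of_sq_add g a₂ e₂ (4 * a₁) hg0 id1'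
    obtain ⟨c₂, hc₂, hc₂'⟩ := exists_of_sq_add g a₂ (9 * e₂) (36 * e₁) hg0 id2'
    have he₂0 : 0 < e₂ := by
      rcases Nat.eq_zero_or_pos e₂ with h | h
      · subst h; simp at he₂; omega
      · exact h
    have hb₂0 : 0 < b₂ := by
      rcases Nat.eq_zero_or_pos b₂ with h | h
      · subst h; simp at hb₂; omega
      · exact h
    have hc₂0 : 0 < c₂ := by
      rcases Nat.eq_zero_or_pos c₂ with h | h
      · subst h; simp at hc₂; omega
      · exact h
    refine ⟨a₂, e₂, b₂, c₂, ⟨he₂0, hb₂0, hc₂0, hcop₂, by omega, by nlinarith⟩, ?_⟩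
    -- bound
    have h1 : a₂ ≤ 9 * b₁ := by rw [ha₂]; exact Nat.le_mul_of_pos_right _ hg0
    have h2 : a₂ ^ 2 ≤ (9 * b₁) ^ 2 := Nat.pow_le_pow_left h1 2
    nlinarith


theorem IsSol.big {a e b c : ℕ} (h : IsSol a e b c) : 90 < a ∧ b < a := by
  obtain ⟨he, hb, hc, -, h1, h2⟩ := h
  have hba : b < a := by nlinarith
  have h9 : 9 * e < a := by nlinarith
  have hab : a + b ≤ e ^ 2 := by
    have : (a - b) * (a + b) = e ^ 2 := by
      zify [hba.le]; nlinarith
    have h1' : 1 ≤ a - b := by omega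
    calc a + b = 1 * (a + b) := (one_mul _).symm
      _ ≤ (a - b) * (a + b) := Nat.mul_le_mul_right _ h1'
      _ = e ^ 2 := this
  have he10 : 10 ≤ e := by
    by_contra hlt
    push Not at hlt
    have : e ^ 2 ≤ 9 * e := by nlinarith
    omega
  exact ⟨by omega, hba⟩

/-- the descent step: from a solution to a strictly smaller one -/
theorem descent_step {a e b c : ℕ} (h : IsSol a e b c) :
    ∃ a' e' b' c' : ℕ, IsSol a' e' b' c' ∧ a' < a := by
  obtain ⟨ha90, hba⟩ := h.big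
  obtain ⟨he, hb, hc, hcop, h1, h2⟩ := h
  have hca : c < a := by nlinarith
  -- the new point `p / q`
  have hq0 : 0 < a - b := by omega
  have hpq : 81 * (a - b) < a + c := by
    have hz : (81 * ((a : ℤ) - b)) < a + c := by
      have e1 : ((a : ℤ) - b) * (a + b) = e ^ 2 := by
        have := congrArg (fun x : ℕ => (x : ℤ)) h1; push_cast at this; nlinarith
      have e2 : ((a : ℤ) - c) * (a + c) = 81 * e ^ 2 := by
        have := congrArg (fun x : ℕ => (x : ℤ)) h2; push_cast at this; nlinarith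
      have hab : (0 : ℤ) < a + b := by positivity
      have hcb : ((a : ℤ) - c) < a + b := by
        have : (0 : ℤ) < b := by exact_mod_cast hb
        have : (0 : ℤ) < c := by exact_mod_cast hc
        linarith
      have hac : (0 : ℤ) < a + c := by positivity
      -- 81 (a-b)(a+b) = (a-c)(a+c) < (a+b)(a+c)
      have : 81 * ((a : ℤ) - b) * (a + b) < (a + c) * (a + b) := by nlinarith
      exact lt_of_mul_lt_mul_right this hab.le
    zify [hba.le]; exact hz
  obtain ⟨u, v, hcopuv, hu, hv⟩ := Nat.exists_coprime (a + c) (a - b)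
  set g := Nat.gcd (a + c) (a - b) with hg
  have hg0 : 0 < g := Nat.gcd_pos_of_pos_right _ hq0
  have hv0 : 0 < v := by
    rcases Nat.eq_zero_or_pos v with h | h
    · subst h; simp at hv; omega
    · exact h
  have huv : 81 * v < u := by
    have : 81 * (v * g) < u * g := by rw [← hu, ← hv]; exact hpq
    nlinarith
  -- `B`, `C`
  obtain ⟨B, hB⟩ : ∃ B, B + v = u := ⟨u - v, by omega⟩
  obtain ⟨C, hC⟩ : ∃ C, C + 81 * v = u := ⟨u - 81 * v, by omega⟩
  have hC0 : 0 < C := by omega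
  -- the square identity
  have hsqZ : ((e * g ^ 2 : ℕ) : ℤ) ^ 2 * ((u * v * B * C : ℕ) : ℤ) =
      (((a : ℤ) - b) * (a + c) * (b + c)) ^ 2 := by
    have e1 : (a : ℤ) ^ 2 = e ^ 2 + b ^ 2 := by exact_mod_cast h1
    have e2 : (a : ℤ) ^ 2 = 81 * e ^ 2 + c ^ 2 := by exact_mod_cast h2
    have hu' : ((a : ℤ) + c) = u * g := by exact_mod_cast hu
    have hv' : ((a : ℤ) - b) = v * g := by
      have := congrArg (fun x : ℕ => (x : ℤ)) hv
      push_cast [hba.le] at this; exact this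
    have hB' : (B : ℤ) = u - v := by
      have := congrArg (fun x : ℕ => (x : ℤ)) hB; push_cast at this; linarith
    have hC' : (C : ℤ) = u - 81 * v := by
      have := congrArg (fun x : ℕ => (x : ℤ)) hC; push_cast at this; linarith
    -- work with P = u g, Q = v g
    have hPQ : ((u : ℤ) * g - v * g) = b + c := by rw [← hu', ← hv']; ring
    have key : ((u : ℤ) * g - 81 * (v * g)) * e ^ 2 = (v * g) * (u * g) * (b + c) := by
      rw [← hu', ← hv']
      have hc2 : (c : ℤ) ^ 2 = 81 * b ^ 2 - 80 * a ^ 2 := by linarith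
      have he2 : (e : ℤ) ^ 2 = a ^ 2 - b ^ 2 := by linarith
      rw [he2]
      linear_combination (-((a : ℤ) - b)) * hc2
    push_cast
    rw [hB', hC']
    have : ((e : ℤ) * g ^ 2) ^ 2 * (u * v * (u - v) * (u - 81 * v)) =
        (u * g) * (v * g) * (u * g - v * g) * ((u * g - 81 * (v * g)) * e ^ 2) := by ring
    rw [this, key, hPQ, ← hu', ← hv']
    ring
  have hsqN : ∃ M : ℕ, (e * g ^ 2) ^ 2 * (u * v * B * C) = M ^ 2 := by
    refine ⟨(((a : ℤ) - b) * (a + c) * (b + c)).natAbs, ?_⟩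
    zify
    rw [sq_abs]
    exact_mod_cast hsqZ
  obtain ⟨M, hM⟩ := hsqN
  obtain ⟨n, hn⟩ := sq_of_sq_mul (by positivity) hM
  obtain ⟨a', e', b', c', hsol, hbound⟩ := lemmaE u v B C n hv0 hB hC hC0 hcopuv hn
  refine ⟨a', e', b', c', hsol, ?_⟩
  have hup : u ≤ a + c := by rw [hu]; exact Nat.le_mul_of_pos_right _ hg0
  have : 5 * a' ^ 2 < 5 * a ^ 2 := by nlinarith
  have : a' ^ 2 < a ^ 2 := by omega
  exact lt_of_pow_lt_pow_left₀ 2 (by positivity) this

/-- the concordant system has no solutions -/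
theorem no_sol : ∀ a e b c : ℕ, ¬ IsSol a e b c := by
  intro a
  induction a using Nat.strong_induction_on with
  | _ a ih =>
    intro e b c h
    obtain ⟨a', e', b', c', h', hlt⟩ := descent_step h
    exact ih a' hlt e' b' c' h'


/-- no rational point with `X > 81` -/
theorem no_point_gt (X Y : ℚ) (hX : 81 < X) (h : Y ^ 2 = X * (X - 1) * (X - 81)) : False := by
  have hXpos : 0 < X := by linarith
  have hnum : 0 < X.num := Rat.num_pos.mpr hXpos
  obtain ⟨u, hu⟩ : ∃ u : ℕ, (u : ℤ) = X.num := ⟨X.num.toNat, Int.toNat_of_nonneg hnum.le⟩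
  set v := X.den with hv
  have hv0 : 0 < v := X.den_pos
  have hXuv : X = (u : ℚ) / (v : ℚ) := by
    have h1 : X = ((u : ℤ) : ℚ) / (v : ℚ) := by rw [hu]; exact (Rat.num_div_den X).symm
    rw [Int.cast_natCast] at h1
    exact h1
  have hcop : Nat.Coprime u v := by
    have := X.reduced
    rw [← hu] at this
    simpa using this
  have hvq : (0 : ℚ) < v := by exact_mod_cast hv0
  have huv : 81 * v < u := by
    have : (81 : ℚ) < (u : ℚ) / v := by rw [← hXuv]; exact hX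
    rw [lt_div_iff₀ hvq] at this
    exact_mod_cast this
  obtain ⟨B, hB⟩ : ∃ B, B + v = u := ⟨u - v, by omega⟩
  obtain ⟨C, hC⟩ : ∃ C, C + 81 * v = u := ⟨u - 81 * v, by omega⟩
  have hC0 : 0 < C := by omega
  have hBq : (B : ℚ) = u - v := by
    have := congrArg (fun x : ℕ => (x : ℚ)) hB; push_cast at this; linarith
  have hCq : (C : ℚ) = u - 81 * v := by
    have := congrArg (fun x : ℕ => (x : ℚ)) hC; push_cast at this; linarith
  have hsqQ : IsSquare (((u * v * B * C : ℕ)) : ℚ) := by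
    refine ⟨Y * v ^ 2, ?_⟩
    push_cast
    rw [hBq, hCq]
    have : (Y * v ^ 2) * (Y * v ^ 2) = Y ^ 2 * (v : ℚ) ^ 4 := by ring
    rw [this, h, hXuv]
    field_simp
  obtain ⟨n, hn⟩ := Rat.isSquare_natCast_iff.mp hsqQ
  obtain ⟨a, e, b, c, hsol, -⟩ := lemmaE u v B C n hv0 hB hC hC0 hcop (by rw [hn]; ring)
  exact no_sol a e b c hsol

/-- The only rational points on `Y^2 = X (X - 1) (X - 81)` are the 2-torsion points. -/
theorem rat_points (X Y : ℚ) (h : Y ^ 2 = X * (X - 1) * (X - 81)) : Y = 0 := by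
  by_contra hY
  have hpos : 0 < X * (X - 1) * (X - 81) := by rw [← h]; positivity
  rcases lt_trichotomy X 81 with hlt | heq | hgt
  · -- `X < 81`
    have h81 : X - 81 < 0 := by linarith
    have h2 : X * (X - 1) < 0 := by
      by_contra hge
      push Not at hge
      have : X * (X - 1) * (X - 81) ≤ 0 := mul_nonpos_of_nonneg_of_nonpos hge h81.le
      linarith
    -- so `0 < X < 1`
    have hX0 : 0 < X := by
      by_contra hle
      push Not at hle
      have : 0 ≤ X * (X - 1) := mul_nonneg_of_nonpos_of_nonpos hle (by linarith)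
      linarith
    have hX1 : X < 1 := by
      by_contra hge
      push Not at hge
      have : 0 ≤ X * (X - 1) := mul_nonneg hX0.le (by linarith)
      linarith
    -- translate by the point `(0, 0)`
    refine no_point_gt (81 / X) (81 * Y / X ^ 2) ?_ ?_
    · rw [lt_div_iff₀ hX0]; nlinarith
    · have hX0' : X ≠ 0 := hX0.ne'
      field_simp
      rw [h]
      ring
  · rw [heq] at hpos; norm_num at hpos
  · exact no_point_gt X Y hgt h


end Fermat.Agent.Lib.S51
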