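/-
S51 helper library, part 6: from the rational points of `15a2 : Y² = X(X-1)(X-81)` to the rational
points of `X₀(15) : s² = v(4v+1)(9v-4)`, and the contradiction with semistability at `5`.
-/
import Mathlib

set_option autoImplicit false

namespace Fermat.Agent.Lib.S51

/-- The possible values of the Hauptmodul `k` of `X₀(5)` at a non-cuspidal rational point of
`X₀(15)`, given that `15a2` has only the trivial rational points. -/
theorem k_mem_of_rat_points
    (hdesc : ∀ X Y : ℚ, Y^2 = X*(X-1)*(X-81) → Y = 0)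
    (v s k : ℚ) (hv : v ≠ 0) (hk : k ≠ 0) (hs : s^2 = v*(4*v+1)*(9*v-4))
    (hk' : 2*v^2*k = -13*v^2 + 3*v + (v+1)*s) :
    k = -25/2 ∨ k = -25/8 ∨ k = -10 ∨ k = -40 := by
  -- the point `(x, y) = (36 v - 16, 36 s)` on `y² = x (x+16) (x+25)`
  obtain ⟨x, hx⟩ : ∃ x : ℚ, x = 36*v - 16 := ⟨_, rfl⟩
  obtain ⟨y, hy⟩ : ∃ y : ℚ, y = 36*s := ⟨_, rfl⟩
  have hxy : y^2 = x*(x+16)*(x+25) := by
    rw [hx, hy]; linear_combination 1296 * hs
  have hcase : y = 0 ∨ x^2 = 400 := by
    by_cases hx0 : x = 0
    · left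
      rw [hx0] at hxy
      have : y^2 = 0 := by rw [hxy]; ring
      exact pow_eq_zero_iff (two_ne_zero) |>.mp this
    · have h2 : (y*(400 - x^2)/x^2)^2 = (y^2/x^2) * (y^2/x^2 - 1) * (y^2/x^2 - 81) := by
        have hX : y^2/x^2 = (x+16)*(x+25)/x := by rw [hxy]; field_simp
        have hY : (y*(400 - x^2)/x^2)^2 = (y^2/x^2) * ((400-x^2)^2/x^2) := by field_simp
        rw [hY, hX]
        field_simp
        ring
      have h3 := hdesc _ _ h2
      have hx2 : x^2 ≠ 0 := pow_ne_zero _ hx0
      rw [div_eq_zero_iff] at h3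
      rcases h3 with h3 | h3
      · rcases mul_eq_zero.mp h3 with h4 | h4
        · left; exact h4
        · right; linear_combination -h4
      · exact absurd h3 hx2
  rcases hcase with h0 | h400
  · -- `s = 0`
    have hs0 : s = 0 := by
      have : 36 * s = 0 := by rw [← hy]; exact h0
      linarith
    rw [hs0] at hs hk'
    have hprod : v*(4*v+1)*(9*v-4) = 0 := by rw [← hs]; ring
    rcases mul_eq_zero.mp hprod with h | h
    · rcases mul_eq_zero.mp h with h | h
      · exact absurd h hv
      · left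
        have hv' : v = -1/4 := by linarith
        rw [hv'] at hk'
        linarith
    · right; left
      have hv' : v = 4/9 := by linarith
      rw [hv'] at hk'
      linarith
  · -- `x = ± 20`
    have hx20 : (x - 20) * (x + 20) = 0 := by linear_combination h400
    rcases mul_eq_zero.mp hx20 with h | h
    · -- `v = 1`
      have hv' : v = 1 := by rw [hx] at h; linarith
      rw [hv'] at hs hk'
      have hs5 : (s - 5) * (s + 5) = 0 := by linear_combination hs
      rcases mul_eq_zero.mp hs5 with h5 | h5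
      · exfalso
        have : s = 5 := by linarith
        rw [this] at hk'
        apply hk; linarith
      · right; right; left
        have : s = -5 := by linarith
        rw [this] at hk'
        linarith
    · -- `v = -1/9`
      have hv' : v = -1/9 := by rw [hx] at h; linarith
      rw [hv'] at hs hk'
      have hs5 : (s - 5/9) * (s + 5/9) = 0 := by linear_combination hs
      rcases mul_eq_zero.mp hs5 with h5 | h5
      · exfalso
        have : s = 5/9 := by linarith
        rw [this] at hk'
        apply hk; linarith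
      · right; right; right
        have : s = -5/9 := by linarith
        rw [this] at hk'
        linarith

/-- The divisibility argument at `5`. -/
lemma semistable_contra (c₄ Δ A B : ℤ) (h : A * c₄^3 = B * Δ) (hA : ¬ (5:ℤ) ∣ A)
    (hB5 : (5:ℤ) ∣ B) (hB : ¬ (125:ℤ) ∣ B) (hss : (5:ℤ) ∣ Δ → ¬ (5:ℤ) ∣ c₄) : False := by
  have h5 : Prime (5:ℤ) := by norm_num
  have hc : (5:ℤ) ∣ c₄ := by
    have : (5:ℤ) ∣ A * c₄^3 := by rw [h]; exact Dvd.dvd.mul_right hB5 _
    rcases h5.dvd_or_dvd this with h1 | h1
    · exact absurd h1 hA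
    · exact h5.dvd_of_dvd_pow h1
  have hΔ : (5:ℤ) ∣ Δ := by
    by_contra hΔ
    obtain ⟨c, rfl⟩ := hc
    have h125 : (125:ℤ) ∣ B * Δ := by
      rw [← h]; exact ⟨A * c^3, by ring⟩
    have hcop : IsCoprime (125:ℤ) Δ := by
      have : IsCoprime (5:ℤ) Δ := (h5.coprime_iff_not_dvd).mpr hΔ
      have := this.pow_left (m := 3)
      norm_num at this
      exact this
    exact hB (hcop.dvd_of_dvd_mul_right h125)
  exact hss hΔ hc

/-- No semistable integral model has `c₄³ k = (k² + 10 k + 5)³ Δ` with `k` in the list. -/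
theorem no_semistable (c₄ Δ : ℤ) (k : ℚ)
    (hk : k = -25/2 ∨ k = -25/8 ∨ k = -10 ∨ k = -40)
    (hrel : (c₄:ℚ)^3 * k = (k^2+10*k+5)^3 * (Δ:ℚ))
    (hss : (5:ℤ) ∣ Δ → ¬ (5:ℤ) ∣ c₄) : False := by
  rcases hk with rfl | rfl | rfl | rfl
  · -- `-32 c₄³ = 121945 Δ`
    have : ((-32 * c₄^3 : ℤ) : ℚ) = ((121945 * Δ : ℤ) : ℚ) := by
      push_cast; linear_combination (64/25 : ℚ) * hrel
    have h := Int.cast_injective this
    exact semistable_contra c₄ Δ (-32) 121945 h (by norm_num) (by norm_num) (by norm_num) hss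
  · -- `32768 c₄³ = 46969655 Δ`
    have : ((32768 * c₄^3 : ℤ) : ℚ) = ((46969655 * Δ : ℤ) : ℚ) := by
      push_cast; linear_combination (-262144/25 : ℚ) * hrel
    have h := Int.cast_injective this
    exact semistable_contra c₄ Δ 32768 46969655 h (by norm_num) (by norm_num) (by norm_num) hss
  · -- `-2 c₄³ = 25 Δ`
    have : ((-2 * c₄^3 : ℤ) : ℚ) = ((25 * Δ : ℤ) : ℚ) := by
      push_cast; linear_combination (1/5 : ℚ) * hrel
    have h := Int.cast_injective this
    exact semistable_contra c₄ Δ (-2) 25 h (by norm_num) (by norm_num) (by norm_num) hss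
  · -- `-8 c₄³ = 25 * 241³ Δ`
    have : ((-8 * c₄^3 : ℤ) : ℚ) = ((349938025 * Δ : ℤ) : ℚ) := by
      push_cast; linear_combination (1/5 : ℚ) * hrel
    have h := Int.cast_injective this
    exact semistable_contra c₄ Δ (-8) 349938025 h (by norm_num) (by norm_num) (by norm_num) hss

end Fermat.Agent.Lib.S51
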