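/-
S51 helper library, part 2: existence of 3- and 5-torsion points over an algebraically closed
field of characteristic zero, and the bounds `#E[3] ≤ 9`, `#E[5] ≤ 25`.
-/
import Fermat.Agent.Lib.S51.Dup

set_option autoImplicit false
set_option linter.unusedSectionVars false

namespace Fermat.Agent.Lib.S51
open WeierstrassCurve WeierstrassCurve.Affine Polynomial

section Eval

variable {F : Type*} [Field F] (W : WeierstrassCurve.Affine F)

lemma eval_Ψ₃ (x : F) : W.Ψ₃.eval x = p3 W x := by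
  simp [WeierstrassCurve.Ψ₃, p3]

lemma eval_Ψ₂Sq (x : F) : W.Ψ₂Sq.eval x = dd W x := by
  simp [WeierstrassCurve.Ψ₂Sq, dd]

lemma eval_preΨ₄ (x : F) : W.preΨ₄.eval x = p4 W x := by
  simp [WeierstrassCurve.preΨ₄, p4]

lemma preΨ'_five : W.preΨ' 5 = W.preΨ₄ * W.Ψ₂Sq ^ 2 - W.Ψ₃ ^ 3 := by
  have := W.preΨ'_odd 0
  simpa using this

lemma eval_preΨ'_five (x : F) : (W.preΨ' 5).eval x = p5 W x := by
  rw [preΨ'_five, p5]
  simp [eval_Ψ₃, eval_Ψ₂Sq, eval_preΨ₄]

end Eval

section Exists

variable {F : Type*} [Field F] [IsAlgClosed F] [CharZero F] (W : WeierstrassCurve.Affine F)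

lemma exists_y (x : F) : ∃ y, W.Equation x y := by
  obtain ⟨s, hs⟩ := IsAlgClosed.exists_pow_nat_eq (dd W x) (n := 2) (by norm_num)
  refine ⟨(s - W.a₁ * x - W.a₃) / 2, ?_⟩
  rw [Affine.equation_iff]
  simp only [dd, WeierstrassCurve.b₂, WeierstrassCurve.b₄, WeierstrassCurve.b₆] at hs
  field_simp
  linear_combination hs

variable [DecidableEq F]

lemma exists_three_torsion (hΔ : W.Δ ≠ 0) : ∃ P : W.Point, P ≠ 0 ∧ 3 • P = 0 := by
  have hdeg : W.Ψ₃.degree ≠ 0 := by
    have h3 : (3 : F) ≠ 0 := by norm_num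
    rw [degree_eq_natDegree (W.Ψ₃_ne_zero h3), W.natDegree_Ψ₃ h3]
    norm_num
  obtain ⟨x, hx⟩ := IsAlgClosed.exists_root W.Ψ₃ hdeg
  rw [IsRoot.def, eval_Ψ₃] at hx
  obtain ⟨y, hy⟩ := exists_y W x
  have hns : W.Nonsingular x y := (W.equation_iff_nonsingular_of_Δ_ne_zero hΔ).mp hy
  exact ⟨Point.some x y hns, Point.some_ne_zero hns,
    (three_nsmul_eq_zero_iff W hΔ hns).mpr hx⟩

lemma exists_five_torsion (hΔ : W.Δ ≠ 0) : ∃ P : W.Point, P ≠ 0 ∧ 5 • P = 0 := by
  have h5 : ((5 : ℕ) : F) ≠ 0 := by norm_num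
  have hdeg : (W.preΨ' 5).degree ≠ 0 := by
    rw [degree_eq_natDegree (W.preΨ'_ne_zero h5), W.natDegree_preΨ' h5]
    norm_num
  obtain ⟨x, hx⟩ := IsAlgClosed.exists_root (W.preΨ' 5) hdeg
  rw [IsRoot.def, eval_preΨ'_five] at hx
  obtain ⟨y, hy⟩ := exists_y W x
  have hns : W.Nonsingular x y := (W.equation_iff_nonsingular_of_Δ_ne_zero hΔ).mp hy
  exact ⟨Point.some x y hns, Point.some_ne_zero hns,
    (five_nsmul_eq_zero_iff W hΔ hns).mpr hx⟩

end Exists

section Count

variable {F : Type*} [Field F] [DecidableEq F] (W : WeierstrassCurve.Affine F)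

/-- injection of points into `Option (F × F)` -/
def toPair : W.Point → Option (F × F)
  | .zero => none
  | .some x y _ => some (x, y)

lemma toPair_injective : Function.Injective (toPair W) := by
  rintro (_ | ⟨x₁, y₁, h₁⟩) (_ | ⟨x₂, y₂, h₂⟩) h <;>
    simp only [toPair, Option.some.injEq, Prod.mk.injEq, reduceCtorEq] at h
  · rfl
  · obtain ⟨rfl, rfl⟩ := h; rfl

/-- the polynomial in `y` whose roots are the `y`-coordinates of the points above `x` -/
noncomputable def yPoly (x : F) : F[X] :=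
  X^2 + C (W.a₁*x + W.a₃) * X - C (x^3 + W.a₂*x^2 + W.a₄*x + W.a₆)

lemma natDegree_yPoly (x : F) : (yPoly W x).natDegree = 2 := by
  rw [yPoly]
  compute_degree!

lemma yPoly_ne_zero (x : F) : yPoly W x ≠ 0 := by
  intro h
  have := natDegree_yPoly W x
  rw [h] at this
  simp at this

lemma isRoot_yPoly_iff (x y : F) : (yPoly W x).IsRoot y ↔ W.Equation x y := by
  rw [Affine.equation_iff, IsRoot.def, yPoly]
  simp only [eval_sub, eval_add, eval_pow, eval_X, eval_mul, eval_C]
  constructor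
  · intro h; linear_combination h
  · intro h; linear_combination h

/-- a finite set containing all pairs `(x, y)` on the curve with `x` a root of `p` -/
noncomputable def pairSet (p : F[X]) : Finset (F × F) :=
  p.roots.toFinset.biUnion (fun x => (yPoly W x).roots.toFinset.image (fun y => (x, y)))

lemma card_pairSet_le (p : F[X]) : (pairSet W p).card ≤ 2 * p.natDegree := by
  rw [pairSet]
  refine (Finset.card_biUnion_le).trans ?_
  have h1 : ∀ x ∈ p.roots.toFinset,
      ((yPoly W x).roots.toFinset.image (fun y => (x, y))).card ≤ 2 := by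
    intro x _
    refine (Finset.card_image_le).trans ?_
    refine (Multiset.toFinset_card_le _).trans ?_
    refine (Polynomial.card_roots' _).trans ?_
    rw [natDegree_yPoly]
  refine (Finset.sum_le_card_nsmul _ _ 2 h1).trans ?_
  rw [smul_eq_mul, mul_comm]
  refine Nat.mul_le_mul_left 2 ?_
  exact (Multiset.toFinset_card_le _).trans (Polynomial.card_roots' _)

lemma mem_pairSet {p : F[X]} (hp : p ≠ 0) (x y : F) :
    (x, y) ∈ pairSet W p ↔ p.eval x = 0 ∧ W.Equation x y := by
  rw [pairSet]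
  simp only [Finset.mem_biUnion, Multiset.mem_toFinset, Finset.mem_image, Prod.mk.injEq]
  constructor
  · rintro ⟨a, ha, b, hb, rfl, rfl⟩
    rw [mem_roots hp] at ha
    rw [mem_roots (yPoly_ne_zero W a), isRoot_yPoly_iff] at hb
    exact ⟨ha, hb⟩
  · rintro ⟨h1, h2⟩
    refine ⟨x, (mem_roots hp).mpr h1, y, ?_, rfl, rfl⟩
    rw [mem_roots (yPoly_ne_zero W x), isRoot_yPoly_iff]
    exact h2

theorem card_torsion_le (n : ℕ) (p : F[X]) (hp : p ≠ 0)
    (hchar : ∀ (x y : F) (h : W.Nonsingular x y), n • Point.some x y h = 0 → p.eval x = 0) :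
    Finite {P : W.Point // n • P = 0} ∧
      Nat.card {P : W.Point // n • P = 0} ≤ 1 + 2 * p.natDegree := by
  classical
  let S : Finset (Option (F × F)) := insert none ((pairSet W p).image some)
  have hmem : ∀ P : {P : W.Point // n • P = 0}, toPair W P.1 ∈ S := by
    rintro ⟨P, hP⟩
    cases P with
    | zero => simp [S, toPair]
    | some x y h =>
      have := hchar x y h hP
      simp only [S, toPair, Finset.mem_insert, reduceCtorEq, Finset.mem_image, Option.some.injEq,
        exists_eq_right, false_or]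
      exact (mem_pairSet W hp x y).mpr ⟨this, h.1⟩
  let g : {P : W.Point // n • P = 0} → S := fun P => ⟨toPair W P.1, hmem P⟩
  have hg : Function.Injective g := by
    intro P Q h
    have : toPair W P.1 = toPair W Q.1 := congrArg Subtype.val h
    exact Subtype.ext (toPair_injective W this)
  refine ⟨Finite.of_injective g hg, ?_⟩
  refine (Nat.card_le_card_of_injective g hg).trans ?_
  rw [Nat.card_eq_fintype_card, Fintype.card_coe]
  refine (Finset.card_insert_le _ _).trans ?_
  have := (Finset.card_image_le (s := pairSet W p) (f := some)).trans (card_pairSet_le W p)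
  omega


variable [CharZero F]

theorem card_three_torsion_le (hΔ : W.Δ ≠ 0) :
    Finite {P : W.Point // 3 • P = 0} ∧ Nat.card {P : W.Point // 3 • P = 0} ≤ 9 := by
  have h3 : (3 : F) ≠ 0 := by norm_num
  have := card_torsion_le W 3 W.Ψ₃ (W.Ψ₃_ne_zero h3) (fun x y h h0 => by
    rw [eval_Ψ₃]; exact (three_nsmul_eq_zero_iff W hΔ h).mp h0)
  rw [W.natDegree_Ψ₃ h3] at this
  exact this

theorem card_five_torsion_le (hΔ : W.Δ ≠ 0) :
    Finite {P : W.Point // 5 • P = 0} ∧ Nat.card {P : W.Point // 5 • P = 0} ≤ 25 := by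
  have h5 : ((5 : ℕ) : F) ≠ 0 := by norm_num
  have := card_torsion_le W 5 (W.preΨ' 5) (W.preΨ'_ne_zero h5) (fun x y h h0 => by
    rw [eval_preΨ'_five]; exact (five_nsmul_eq_zero_iff W hΔ h).mp h0)
  rw [W.natDegree_preΨ' h5] at this
  exact this

end Count


end Fermat.Agent.Lib.S51
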