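/-
S51 helper library, part 3: from a Galois-stable proper nonzero submodule of `E[3]` (resp. `E[5]`)
to a rational root of `Ψ₃` (resp. a root of `ψ₅` whose Galois orbit is contained in `{x, dupX x}`).
-/
import Fermat.Agent.Lib.S51.Torsion
import Fermat.Agent.Lib.Frobenius.Exists
import Fermat.Prelude.Def_FLTPrelim_GaloisRep

set_option autoImplicit false
set_option linter.unusedSectionVars false
set_option linter.style.haveILetI false

namespace Fermat.Agent.Lib.S51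
open WeierstrassCurve WeierstrassCurve.Affine Polynomial
open scoped WeierstrassCurve.Affine

lemma exists_generator {p : ℕ} [Fact p.Prime] {T : Type*} [AddCommGroup T] [Module (ZMod p) T]
    [Finite T] (hcard : Nat.card T ≤ p^2) (N : Submodule (ZMod p) T) (h0 : N ≠ ⊥) (h1 : N ≠ ⊤) :
    ∃ v ∈ N, v ≠ 0 ∧ ∀ w ∈ N, ∃ c : ZMod p, w = c • v := by
  have hp : p.Prime := Fact.out
  have : Module.Finite (ZMod p) T := Module.Finite.of_finite
  have hc := Module.natCard_eq_pow_finrank (K := ZMod p) (V := T)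
  rw [Nat.card_zmod] at hc
  rw [hc] at hcard
  have hT : Module.finrank (ZMod p) T ≤ 2 := (Nat.pow_le_pow_iff_right hp.one_lt).mp hcard
  have hlt : Module.finrank (ZMod p) N < Module.finrank (ZMod p) T :=
    Submodule.finrank_lt h1
  have hne : Module.finrank (ZMod p) N ≠ 0 := by
    intro h
    exact h0 (Submodule.finrank_eq_zero.mp h)
  have h1' : Module.finrank (ZMod p) N = 1 := by omega
  obtain ⟨v, hv, hspan⟩ := finrank_eq_one_iff'.mp h1'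
  refine ⟨v.1, v.2, fun h => hv (Subtype.ext h), fun w hw => ?_⟩
  obtain ⟨c, hc⟩ := hspan ⟨w, hw⟩
  exact ⟨c, by rw [← Submodule.coe_smul, hc]⟩

local notation "Qb" => AlgebraicClosure ℚ
local notation "Γ" => (AlgebraicClosure ℚ ≃ₐ[ℚ] AlgebraicClosure ℚ)

variable (E : WeierstrassCurve.Affine ℚ)

lemma Δ_baseChange_ne_zero (hΔ : E.Δ ≠ 0) : (E⁄Qb).Δ ≠ 0 := by
  change (E.map (algebraMap ℚ Qb)).Δ ≠ 0
  rw [WeierstrassCurve.map_Δ]
  exact (_root_.map_ne_zero _).mpr hΔ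

lemma xOf_smul (σ : Γ) (P : (E⁄Qb).Point) : xOf (E⁄Qb) (σ • P) = σ (xOf (E⁄Qb) P) := by
  rw [Point.algEquiv_smul_def]
  cases P with
  | zero => simp [xOf, ← Point.zero_def]
  | some x y h => rw [Point.map_some]; rfl

lemma smul_ne_zero_of_ne_zero (σ : Γ) {P : (E⁄Qb).Point} (hP : P ≠ 0) : σ • P ≠ 0 := by
  intro h
  apply hP
  have := congrArg (fun Q => σ⁻¹ • Q) h
  simp only [inv_smul_smul] at this
  exact this

lemma card_torsionBy_le (n b : ℕ)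
    (h : Finite {P : (E⁄Qb).Point // n • P = 0} ∧ Nat.card {P : (E⁄Qb).Point // n • P = 0} ≤ b) :
    Finite (Submodule.torsionBy ℤ (E⁄Qb).Point n) ∧
      Nat.card (Submodule.torsionBy ℤ (E⁄Qb).Point n) ≤ b := by
  obtain ⟨hfin, hcard⟩ := h
  let g : Submodule.torsionBy ℤ (E⁄Qb).Point n → {P : (E⁄Qb).Point // n • P = 0} :=
    fun P => ⟨P.1, by
      have := (Submodule.mem_torsionBy_iff _ _).mp P.2
      rwa [natCast_zsmul] at this⟩
  have hg : Function.Injective g := by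
    intro P Q h
    exact Subtype.ext (congrArg Subtype.val h)
  exact ⟨Finite.of_injective g hg, (Nat.card_le_card_of_injective g hg).trans hcard⟩

lemma zmod_smul_coe {n : ℕ} [NeZero n] (c : ZMod n)
    (P : Submodule.torsionBy ℤ (E⁄Qb).Point n) :
    ((c • P : Submodule.torsionBy ℤ (E⁄Qb).Point n) : (E⁄Qb).Point)
      = c.val • (P : (E⁄Qb).Point) := by
  conv_lhs => rw [← ZMod.natCast_zmod_val c, Nat.cast_smul_eq_nsmul]
  rfl

lemma nsmul_coe_eq_zero {n : ℕ} (P : Submodule.torsionBy ℤ (E⁄Qb).Point n) :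
    n • (P : (E⁄Qb).Point) = 0 := by
  have := (Submodule.mem_torsionBy_iff _ _).mp P.2
  rwa [natCast_zsmul] at this

theorem exists_x1 (hΔ : E.Δ ≠ 0)
    (N : Submodule (ZMod 5) (Submodule.torsionBy ℤ (E⁄Qb).Point (5 : ℕ)))
    (hN : Point.IsGaloisStable ℚ N) (h0 : N ≠ ⊥) (h1 : N ≠ ⊤) :
    ∃ x₁ : Qb, p5 (E⁄Qb) x₁ = 0 ∧ ∀ σ : Γ, σ x₁ = x₁ ∨ σ x₁ = dupX (E⁄Qb) x₁ := by
  have hΔ' := Δ_baseChange_ne_zero E hΔ
  obtain ⟨hfin, hcard⟩ := card_torsionBy_le E 5 25 (card_five_torsion_le (E⁄Qb) hΔ')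
  haveI : Fact (Nat.Prime 5) := ⟨by norm_num⟩
  obtain ⟨v, hvN, hv0, hspan⟩ := exists_generator (p := 5) (by norm_num; exact hcard) N h0 h1
  have hQ5 : 5 • (v : (E⁄Qb).Point) = 0 := nsmul_coe_eq_zero E v
  have hQ0 : (v : (E⁄Qb).Point) ≠ 0 := fun h => hv0 (Subtype.ext h)
  obtain ⟨x₁, y₁, h₁, hQ⟩ : ∃ x y h, (v : (E⁄Qb).Point) = Point.some x y h := by
    cases hv : (v : (E⁄Qb).Point) with
    | zero => exact absurd hv hQ0
    | some x y h => exact ⟨x, y, h, rfl⟩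
  rw [hQ] at hQ5 hQ0
  have hp5 : p5 (E⁄Qb) x₁ = 0 := (five_nsmul_eq_zero_iff (E⁄Qb) hΔ' h₁).mp hQ5
  have hd : dd (E⁄Qb) x₁ ≠ 0 := (p5_ne (E⁄Qb) hΔ' hp5).1
  refine ⟨x₁, hp5, fun σ => ?_⟩
  obtain ⟨c, hc⟩ := hspan (σ • v) (hN σ v hvN)
  have hc' : σ • (v : (E⁄Qb).Point) = c.val • (v : (E⁄Qb).Point) := by
    have := congrArg (fun P : Submodule.torsionBy ℤ (E⁄Qb).Point (5 : ℕ) => (P : (E⁄Qb).Point)) hc
    simp only [zmod_smul_coe] at this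
    exact this
  rw [hQ] at hc'
  have hx : xOf (E⁄Qb) (c.val • Point.some x₁ y₁ h₁) = σ x₁ := by
    rw [← hc', xOf_smul, xOf_some]
  rcases xOf_nsmul_of_five (E⁄Qb) h₁ hQ5 hd c.val with h | h | h
  · exfalso
    rw [← hc'] at h
    exact smul_ne_zero_of_ne_zero E σ hQ0 h
  · left; rw [← hx, h]
  · right; rw [← hx, h]

lemma p3_baseChange (q : ℚ) : p3 (E⁄Qb) (algebraMap ℚ Qb q) = algebraMap ℚ Qb (p3 E q) := by
  change p3 (E.map (algebraMap ℚ Qb)) (algebraMap ℚ Qb q) = algebraMap ℚ Qb (p3 E q)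
  simp only [p3, WeierstrassCurve.map_b₂, WeierstrassCurve.map_b₄, WeierstrassCurve.map_b₆,
    WeierstrassCurve.map_b₈, map_add, map_mul, map_pow, map_ofNat]

theorem exists_x0 (hΔ : E.Δ ≠ 0)
    (N : Submodule (ZMod 3) (Submodule.torsionBy ℤ (E⁄Qb).Point (3 : ℕ)))
    (hN : Point.IsGaloisStable ℚ N) (h0 : N ≠ ⊥) (h1 : N ≠ ⊤) :
    ∃ x₀ : ℚ, p3 E x₀ = 0 := by
  have hΔ' := Δ_baseChange_ne_zero E hΔ
  obtain ⟨hfin, hcard⟩ := card_torsionBy_le E 3 9 (card_three_torsion_le (E⁄Qb) hΔ')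
  haveI : Fact (Nat.Prime 3) := ⟨by norm_num⟩
  obtain ⟨v, hvN, hv0, hspan⟩ := exists_generator (p := 3) (by norm_num; exact hcard) N h0 h1
  have hQ3 : 3 • (v : (E⁄Qb).Point) = 0 := nsmul_coe_eq_zero E v
  have hQ0 : (v : (E⁄Qb).Point) ≠ 0 := fun h => hv0 (Subtype.ext h)
  obtain ⟨x₁, y₁, h₁, hQ⟩ : ∃ x y h, (v : (E⁄Qb).Point) = Point.some x y h := by
    cases hv : (v : (E⁄Qb).Point) with
    | zero => exact absurd hv hQ0
    | some x y h => exact ⟨x, y, h, rfl⟩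
  rw [hQ] at hQ3 hQ0
  have hp3 : p3 (E⁄Qb) x₁ = 0 := (three_nsmul_eq_zero_iff (E⁄Qb) hΔ' h₁).mp hQ3
  have hfix : ∀ σ : Γ, σ x₁ = x₁ := by
    intro σ
    obtain ⟨c, hc⟩ := hspan (σ • v) (hN σ v hvN)
    have hc' : σ • (v : (E⁄Qb).Point) = c.val • (v : (E⁄Qb).Point) := by
      have := congrArg
        (fun P : Submodule.torsionBy ℤ (E⁄Qb).Point (3 : ℕ) => (P : (E⁄Qb).Point)) hc
      simp only [zmod_smul_coe] at this
      exact this
    rw [hQ] at hc'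
    have hx : xOf (E⁄Qb) (c.val • Point.some x₁ y₁ h₁) = σ x₁ := by
      rw [← hc', xOf_smul, xOf_some]
    rcases xOf_nsmul_of_three (E⁄Qb) h₁ hQ3 c.val with h | h
    · exfalso
      rw [← hc'] at h
      exact smul_ne_zero_of_ne_zero E σ hQ0 h
    · rw [← hx, h]
  haveI := Fermat.Agent.Lib.Frobenius.isGalois_QBar
  obtain ⟨q, hq⟩ := (InfiniteGalois.mem_range_algebraMap_iff_fixed (k := ℚ) x₁).mpr hfix
  refine ⟨q, ?_⟩
  rw [← hq, p3_baseChange] at hp3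
  exact (_root_.map_eq_zero _).mp hp3

theorem nontrivial_torsion_three (hΔ : E.Δ ≠ 0) :
    Nontrivial (Submodule.torsionBy ℤ (E⁄Qb).Point (3 : ℕ)) := by
  obtain ⟨P, hP0, hP3⟩ := exists_three_torsion (E⁄Qb) (Δ_baseChange_ne_zero E hΔ)
  have hmem : P ∈ Submodule.torsionBy ℤ (E⁄Qb).Point (3 : ℕ) := by
    rw [Submodule.mem_torsionBy_iff, natCast_zsmul]; exact hP3
  exact ⟨⟨⟨P, hmem⟩, 0, fun h => hP0 (congrArg Subtype.val h)⟩⟩

theorem nontrivial_torsion_five (hΔ : E.Δ ≠ 0) :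
    Nontrivial (Submodule.torsionBy ℤ (E⁄Qb).Point (5 : ℕ)) := by
  obtain ⟨P, hP0, hP5⟩ := exists_five_torsion (E⁄Qb) (Δ_baseChange_ne_zero E hΔ)
  have hmem : P ∈ Submodule.torsionBy ℤ (E⁄Qb).Point (5 : ℕ) := by
    rw [Submodule.mem_torsionBy_iff, natCast_zsmul]; exact hP5
  exact ⟨⟨⟨P, hmem⟩, 0, fun h => hP0 (congrArg Subtype.val h)⟩⟩

/-- The arithmetic data extracted from reducibility of both the mod-3 and the mod-5
representation. -/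
theorem data_of_reducible (hΔ : E.Δ ≠ 0)
    (h3 : ¬ Point.GaloisRepIsIrreducible (K := AlgebraicClosure ℚ) ℚ E 3)
    (h5 : ¬ Point.GaloisRepIsIrreducible (K := AlgebraicClosure ℚ) ℚ E 5) :
    ∃ (x₀ : ℚ) (x₁ : Qb), p3 E x₀ = 0 ∧ p5 (E⁄Qb) x₁ = 0 ∧
      ∀ σ : Γ, σ x₁ = x₁ ∨ σ x₁ = dupX (E⁄Qb) x₁ := by
  have e3 : ∃ N : Submodule (ZMod 3) (Submodule.torsionBy ℤ (E⁄Qb).Point (3 : ℕ)),
      Point.IsGaloisStable ℚ N ∧ N ≠ ⊥ ∧ N ≠ ⊤ := by
    by_contra hcon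
    apply h3
    refine ⟨nontrivial_torsion_three E hΔ, fun N hN => ?_⟩
    by_contra hN'
    rw [not_or] at hN'
    exact hcon ⟨N, hN, hN'.1, hN'.2⟩
  have e5 : ∃ N : Submodule (ZMod 5) (Submodule.torsionBy ℤ (E⁄Qb).Point (5 : ℕ)),
      Point.IsGaloisStable ℚ N ∧ N ≠ ⊥ ∧ N ≠ ⊤ := by
    by_contra hcon
    apply h5
    refine ⟨nontrivial_torsion_five E hΔ, fun N hN => ?_⟩
    by_contra hN'
    rw [not_or] at hN'
    exact hcon ⟨N, hN, hN'.1, hN'.2⟩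
  obtain ⟨N3, hN3, h30, h31⟩ := e3
  obtain ⟨N5, hN5, h50, h51⟩ := e5
  obtain ⟨x₀, hx₀⟩ := exists_x0 E hΔ N3 hN3 h30 h31
  obtain ⟨x₁, hx₁, hσ⟩ := exists_x1 E hΔ N5 hN5 h50 h51
  exact ⟨x₀, x₁, hx₀, hx₁, hσ⟩

end Fermat.Agent.Lib.S51
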