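/-
S51 helper library, part 5: the point `(v, s)` of `X₀(15)` attached to the data
`(x₀, x₁)` is rational.
-/
import Fermat.Agent.Lib.S51.Algebra
import Fermat.Agent.Lib.S51.Galois

set_option autoImplicit false
set_option linter.unusedSectionVars false
set_option linter.style.haveILetI false

namespace Fermat.Agent.Lib.S51
open WeierstrassCurve WeierstrassCurve.Affine
open scoped WeierstrassCurve.Affine

local notation "Qb" => AlgebraicClosure ℚ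
local notation "Γ" => (AlgebraicClosure ℚ ≃ₐ[ℚ] AlgebraicClosure ℚ)

variable (E : WeierstrassCurve.Affine ℚ)

lemma b₂_bc : (E⁄Qb).b₂ = algebraMap ℚ Qb E.b₂ := by
  change (E.map (algebraMap ℚ Qb)).b₂ = _; rw [WeierstrassCurve.map_b₂]
lemma b₄_bc : (E⁄Qb).b₄ = algebraMap ℚ Qb E.b₄ := by
  change (E.map (algebraMap ℚ Qb)).b₄ = _; rw [WeierstrassCurve.map_b₄]
lemma b₆_bc : (E⁄Qb).b₆ = algebraMap ℚ Qb E.b₆ := by
  change (E.map (algebraMap ℚ Qb)).b₆ = _; rw [WeierstrassCurve.map_b₆]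
lemma b₈_bc : (E⁄Qb).b₈ = algebraMap ℚ Qb E.b₈ := by
  change (E.map (algebraMap ℚ Qb)).b₈ = _; rw [WeierstrassCurve.map_b₈]
lemma c₄_bc : (E⁄Qb).c₄ = algebraMap ℚ Qb E.c₄ := by
  change (E.map (algebraMap ℚ Qb)).c₄ = _; rw [WeierstrassCurve.map_c₄]
lemma Δ_bc : (E⁄Qb).Δ = algebraMap ℚ Qb E.Δ := by
  change (E.map (algebraMap ℚ Qb)).Δ = _; rw [WeierstrassCurve.map_Δ]

lemma map_dd (σ : Γ) (x : Qb) : σ (dd (E⁄Qb) x) = dd (E⁄Qb) (σ x) := by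
  simp only [dd, b₂_bc, b₄_bc, b₆_bc, map_add, map_mul, map_pow, map_ofNat, AlgEquiv.commutes]

lemma map_p3 (σ : Γ) (x : Qb) : σ (p3 (E⁄Qb) x) = p3 (E⁄Qb) (σ x) := by
  simp only [p3, b₂_bc, b₄_bc, b₆_bc, b₈_bc, map_add, map_mul, map_pow, map_ofNat,
    AlgEquiv.commutes]

lemma map_lamOf (σ : Γ) (x : Qb) : σ (lamOf (E⁄Qb) x) = lamOf (E⁄Qb) (σ x) := by
  simp only [lamOf, map_div₀, map_neg, map_pow, map_dd, map_p3]

lemma map_delOf (σ : Γ) (x : Qb) : σ (delOf (E⁄Qb) x) = delOf (E⁄Qb) (σ x) := by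
  simp only [delOf, map_div₀, map_neg, map_dd, map_p3]

lemma map_zOf (σ : Γ) (x₀ x₁ : Qb) : σ (zOf (E⁄Qb) x₀ x₁) = zOf (E⁄Qb) (σ x₀) (σ x₁) := by
  simp only [zOf, map_div₀, map_sub, map_delOf]

lemma map_vOf (σ : Γ) (x₀ x₁ : Qb) : σ (vOf (E⁄Qb) x₀ x₁) = vOf (E⁄Qb) (σ x₀) (σ x₁) := by
  simp only [vOf, map_mul, map_sub, map_one, map_zOf]

lemma map_sOf (σ : Γ) (x₀ x₁ : Qb) : σ (sOf (E⁄Qb) x₀ x₁) = sOf (E⁄Qb) (σ x₀) (σ x₁) := by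
  simp only [sOf, map_mul, map_sub, map_add, map_div₀, map_pow, map_one, map_ofNat, map_zOf,
    map_vOf, map_lamOf]

lemma map_kOf (σ : Γ) (x₁ : Qb) : σ (kOf (E⁄Qb) x₁) = kOf (E⁄Qb) (σ x₁) := by
  simp only [kOf, map_sub, map_div₀, map_one, map_ofNat, map_lamOf]

lemma p3_bc (q : ℚ) : p3 (E⁄Qb) (algebraMap ℚ Qb q) = algebraMap ℚ Qb (p3 E q) := by
  simp only [p3, b₂_bc, b₄_bc, b₆_bc, b₈_bc, map_add, map_mul, map_pow, map_ofNat]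

theorem exists_rational_point (hΔ : E.Δ ≠ 0) (x₀ : ℚ) (x₁ : Qb) (h3 : p3 E x₀ = 0)
    (h5 : p5 (E⁄Qb) x₁ = 0) (hσ : ∀ σ : Γ, σ x₁ = x₁ ∨ σ x₁ = dupX (E⁄Qb) x₁) :
    ∃ v s k : ℚ, v ≠ 0 ∧ k ≠ 0 ∧ s^2 = v*(4*v+1)*(9*v-4) ∧
      2*v^2*k = -13*v^2 + 3*v + (v+1)*s ∧ E.c₄^3 * k = (k^2+10*k+5)^3 * E.Δ := by
  have hΔ' := Δ_baseChange_ne_zero E hΔ
  have h3' : p3 (E⁄Qb) (algebraMap ℚ Qb x₀) = 0 := by rw [p3_bc, h3, map_zero]
  haveI := Fermat.Agent.Lib.Frobenius.isGalois_QBar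
  have hv : ∀ σ : Γ, σ (vOf (E⁄Qb) (algebraMap ℚ Qb x₀) x₁) = vOf (E⁄Qb) (algebraMap ℚ Qb x₀) x₁ := by
    intro σ
    rw [map_vOf, AlgEquiv.commutes]
    rcases hσ σ with h | h
    · rw [h]
    · rw [h, vOf_dupX hΔ' h5]
  have hs : ∀ σ : Γ, σ (sOf (E⁄Qb) (algebraMap ℚ Qb x₀) x₁) = sOf (E⁄Qb) (algebraMap ℚ Qb x₀) x₁ := by
    intro σ
    rw [map_sOf, AlgEquiv.commutes]
    rcases hσ σ with h | h
    · rw [h]
    · rw [h, sOf_dupX hΔ' h3' h5]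
  have hk : ∀ σ : Γ, σ (kOf (E⁄Qb) x₁) = kOf (E⁄Qb) x₁ := by
    intro σ
    rw [map_kOf]
    rcases hσ σ with h | h
    · rw [h]
    · rw [h, kOf_dupX hΔ' h5]
  obtain ⟨v, hv'⟩ := (InfiniteGalois.mem_range_algebraMap_iff_fixed (k := ℚ) _).mpr hv
  obtain ⟨s, hs'⟩ := (InfiniteGalois.mem_range_algebraMap_iff_fixed (k := ℚ) _).mpr hs
  obtain ⟨k, hk'⟩ := (InfiniteGalois.mem_range_algebraMap_iff_fixed (k := ℚ) _).mpr hk
  have hinj : Function.Injective (algebraMap ℚ Qb) := (algebraMap ℚ Qb).injective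
  refine ⟨v, s, k, ?_, ?_, ?_, ?_, ?_⟩
  · intro h
    apply vOf_ne_zero hΔ' h3' h5
    rw [← hv', h, map_zero]
  · intro h
    apply kOf_ne_zero hΔ' h5
    rw [← hk', h, map_zero]
  · apply hinj
    have := sOf_sq hΔ' h3' h5
    rw [← hv', ← hs'] at this
    simpa only [map_mul, map_add, map_sub, map_pow, map_ofNat, map_one] using this
  · apply hinj
    have := kOf_eq hΔ' h3' h5
    rw [← hv', ← hs', ← hk'] at this
    simpa only [map_mul, map_add, map_sub, map_neg, map_pow, map_ofNat, map_one] using this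
  · apply hinj
    have := c₄_kOf hΔ' h5
    rw [← hk', c₄_bc, Δ_bc] at this
    simpa only [map_mul, map_add, map_sub, map_neg, map_pow, map_ofNat, map_one] using this

end Fermat.Agent.Lib.S51
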